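import Mathlib

/-!
# Item 80 (S21), part 1: the cocycle attached to an additive character of a subgroup of finite
index (Shapiro's lemma by hand).

`X = G ⧸ H`, `r = Quotient.out : X → G`.  For `g : G`, `x : X` the element
`c(g, x) = r(g x)⁻¹ g r(x)` lies in `H` and `c(g h, x) = c(g, h x) c(h, x)`.
-/

set_option autoImplicit false

namespace Fermat.Agent.S21

variable {G : Type*} [Group G] (H : Subgroup G)

theorem FA_S21_cEl_mem (g : G) (x : G ⧸ H) :
    (g • x).out⁻¹ * g * x.out ∈ H := by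
  rw [mul_assoc, ← QuotientGroup.eq]
  rw [QuotientGroup.out_eq']
  conv_lhs => rw [← QuotientGroup.out_eq' x]
  rfl

/-- The element `c(g, x) = r(g x)⁻¹ g r(x)` of `H`. -/
noncomputable def FA_S21_cEl (g : G) (x : G ⧸ H) : H :=
  ⟨(g • x).out⁻¹ * g * x.out, FA_S21_cEl_mem H g x⟩

theorem FA_S21_cEl_mul (g h : G) (x : G ⧸ H) :
    FA_S21_cEl H (g * h) x = FA_S21_cEl H g (h • x) * FA_S21_cEl H h x := by
  apply Subtype.ext
  simp only [FA_S21_cEl, Subgroup.coe_mul, mul_smul]
  group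

theorem FA_S21_cEl_of_fix (g : G) (x : G ⧸ H) (hx : g • x = x) :
    ((FA_S21_cEl H g x : H) : G) = x.out⁻¹ * g * x.out := by
  simp only [FA_S21_cEl, hx]

variable {H}

/-- The cocycle `Z_ψ(g)(x) = ψ(c(g, x))`. -/
noncomputable def FA_S21_Z (ψ : Additive H →+ ℂ) (g : G) (x : G ⧸ H) : ℂ :=
  ψ (Additive.ofMul (FA_S21_cEl H g x))

theorem FA_S21_Z_mul (ψ : Additive H →+ ℂ) (g h : G) (x : G ⧸ H) :
    FA_S21_Z ψ (g * h) x = FA_S21_Z ψ g (h • x) + FA_S21_Z ψ h x := by
  unfold FA_S21_Z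
  rw [FA_S21_cEl_mul, ofMul_mul, map_add]

theorem FA_S21_Z_add (ψ ψ' : Additive H →+ ℂ) (g : G) (x : G ⧸ H) :
    FA_S21_Z (ψ + ψ') g x = FA_S21_Z ψ g x + FA_S21_Z ψ' g x := rfl

theorem FA_S21_Z_smul (c : ℂ) (ψ : Additive H →+ ℂ) (g : G) (x : G ⧸ H) :
    FA_S21_Z (c • ψ) g x = c * FA_S21_Z ψ g x := rfl

/-- On `H` and at the base point the cocycle is `ψ`. -/
theorem FA_S21_Z_base (ψ : Additive H →+ ℂ) (h : H) :
    FA_S21_Z ψ (h : G) ((1 : G) : G ⧸ H) = ψ (Additive.ofMul h) := by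
  have hx : (h : G) • (((1 : G) : G ⧸ H)) = ((1 : G) : G ⧸ H) := by
    rw [MulAction.Quotient.smul_coe, smul_eq_mul, mul_one, QuotientGroup.eq]
    simp
  have hr : (((1 : G) : G ⧸ H)).out ∈ H := by
    have h1 : (((((1 : G) : G ⧸ H)).out : G) : G ⧸ H) = ((1 : G) : G ⧸ H) :=
      QuotientGroup.out_eq' _
    rw [QuotientGroup.eq] at h1
    have h2 := H.inv_mem h1
    simpa using h2
  set r : H := ⟨_, hr⟩ with hrdef
  have h3 : FA_S21_cEl H (h : G) ((1 : G) : G ⧸ H) = r⁻¹ * h * r := by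
    apply Subtype.ext
    rw [FA_S21_cEl_of_fix H _ _ hx]
    simp [hrdef]
  unfold FA_S21_Z
  rw [h3, ofMul_mul, ofMul_mul, map_add, map_add, ofMul_inv, map_neg]
  ring

/-- A cocycle (in the generalized sense) vanishing on a generating set vanishes. -/
theorem FA_S21_cocycle_vanish {X : Type*} [MulAction G X] (Z : G → X → ℂ)
    (hZ : ∀ g h x, Z (g * h) x = Z g (h • x) + Z h x) (S : Set G)
    (hS : Subgroup.closure S = ⊤) (h0 : ∀ g ∈ S, ∀ x, Z g x = 0) (g : G) (x : X) :
    Z g x = 0 := by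
  have h1 : ∀ x, Z 1 x = 0 := by
    intro x
    have := hZ 1 1 x
    simp only [mul_one, one_smul] at this
    linear_combination -this
  let K : Subgroup G :=
    { carrier := {g | ∀ x, Z g x = 0}
      mul_mem' := by
        intro a b ha hb x
        rw [hZ, ha, hb, add_zero]
      one_mem' := h1
      inv_mem' := by
        intro a ha x
        have h2 := hZ a⁻¹ a (a⁻¹ • x)
        rw [inv_mul_cancel, h1, smul_inv_smul, ha, add_zero] at h2
        exact h2.symm }
  have hK : Subgroup.closure S ≤ K := (Subgroup.closure_le K).mpr h0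
  rw [hS] at hK
  exact hK (Subgroup.mem_top g) x

/-- Power formula for a cocycle. -/
theorem FA_S21_cocycle_pow {X : Type*} [MulAction G X] (Z : G → X → ℂ)
    (hZ : ∀ g h x, Z (g * h) x = Z g (h • x) + Z h x) (g : G) (m : ℕ) (x : X) :
    Z (g ^ m) x = ∑ i ∈ Finset.range m, Z g (g ^ i • x) := by
  have h1 : ∀ x, Z 1 x = 0 := by
    intro x
    have := hZ 1 1 x
    simp only [mul_one, one_smul] at this
    linear_combination -this
  induction m generalizing x with
  | zero => simp [h1]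
  | succ m ih =>
    rw [pow_succ, hZ, ih, Finset.sum_range_succ']
    simp only [pow_zero, one_smul, pow_succ, mul_smul]

end Fermat.Agent.S21
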