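import Mathlib
import Fermat.Agent.S21.BoundCocycle

/-!
# Item 80 (S21), part 2: linear algebra on the permutation module `X → ℂ`.
-/

set_option autoImplicit false

open scoped ComplexConjugate

namespace Fermat.Agent.S21

section Inv

variable {G : Type*} [Group G] {X : Type*} [MulAction G X]

/-- The functions on `X` invariant under `g`. -/
def FA_S21_inv (g : G) (X : Type*) [MulAction G X] : Submodule ℂ (X → ℂ) where
  carrier := {v | ∀ x, v (g • x) = v x}
  zero_mem' := fun _ => rfl
  add_mem' := by
    intro a b ha hb x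
    simp only [Pi.add_apply, ha x, hb x]
  smul_mem' := by
    intro c a ha x
    simp only [Pi.smul_apply, ha x]

theorem FA_S21_mem_inv (g : G) (v : X → ℂ) : v ∈ FA_S21_inv g X ↔ ∀ x, v (g • x) = v x := Iff.rfl

theorem FA_S21_inv_pow (g : G) (v : X → ℂ) (hv : ∀ x, v (g • x) = v x) (i : ℕ) (x : X) :
    v (g ^ i • x) = v x := by
  induction i with
  | zero => simp
  | succ i ih => rw [pow_succ', mul_smul, hv, ih]

theorem FA_S21_inv_zpowers (g : G) (v : X → ℂ) (hv : ∀ x, v (g • x) = v x)
    (k : Subgroup.zpowers g) (x : X) : v (k • x) = v x := by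
  obtain ⟨k, hk⟩ := k
  obtain ⟨n, rfl⟩ := Subgroup.mem_zpowers_iff.mp hk
  show v ((g ^ n) • x) = v x
  have hinv : ∀ x, v (g⁻¹ • x) = v x := by
    intro x
    have := hv (g⁻¹ • x)
    rw [smul_inv_smul] at this
    exact this.symm
  induction n using Int.induction_on generalizing x with
  | zero => simp
  | succ i ih =>
    rw [zpow_add_one, mul_smul, ih, hv]
    exact Subgroup.zpow_mem_zpowers g _
  | pred i ih =>
    rw [zpow_sub_one, mul_smul, ih, hinv]
    exact Subgroup.zpow_mem_zpowers g _

/-- `dim V^g` is the number of orbits of `⟨g⟩`. -/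
theorem FA_S21_finrank_inv [Finite X] (g : G) :
    Module.finrank ℂ (FA_S21_inv g X)
      = Nat.card (MulAction.orbitRel.Quotient (Subgroup.zpowers g) X) := by
  classical
  have : Fintype (MulAction.orbitRel.Quotient (Subgroup.zpowers g) X) := Fintype.ofFinite _
  let q : X → MulAction.orbitRel.Quotient (Subgroup.zpowers g) X := Quotient.mk''
  have hq : Function.Surjective q := Quotient.mk''_surjective
  let f : (MulAction.orbitRel.Quotient (Subgroup.zpowers g) X → ℂ) →ₗ[ℂ] (X → ℂ) :=
    LinearMap.funLeft ℂ ℂ q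
  have hf : Function.Injective f := LinearMap.funLeft_injective_of_surjective ℂ ℂ q hq
  have hrange : LinearMap.range f = FA_S21_inv g X := by
    ext v
    constructor
    · rintro ⟨w, rfl⟩ x
      show w (q (g • x)) = w (q x)
      congr 1
      apply Quotient.sound
      exact ⟨⟨g, Subgroup.mem_zpowers g⟩, rfl⟩
    · intro hv
      refine ⟨Quotient.lift v ?_, ?_⟩
      · rintro a b ⟨k, rfl⟩
        exact FA_S21_inv_zpowers g v hv k b
      · ext x
        rfl
  rw [← hrange, LinearMap.finrank_range_of_inj hf, Module.finrank_fintype_fun_eq_card,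
    Nat.card_eq_fintype_card]

/-- A function invariant under a generating set is constant if the action is transitive. -/
theorem FA_S21_const_of_inv [MulAction.IsPretransitive G X] (S : Set G)
    (hS : Subgroup.closure S = ⊤) (v : X → ℂ) (hv : ∀ g ∈ S, ∀ x, v (g • x) = v x) (x y : X) :
    v x = v y := by
  have h := FA_S21_cocycle_vanish (fun g x => v (g • x) - v x)
    (by intro g h x; simp only [mul_smul]; ring) S hS
    (by intro g hg x; simp only [hv g hg x, sub_self])
  obtain ⟨g, rfl⟩ := MulAction.exists_smul_eq G y x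
  have h2 : v (g • y) - v y = 0 := h g y
  linear_combination h2

/-- Orthogonality: an invariant function is orthogonal to the kernel of the norm. -/
theorem FA_S21_orth [Fintype X] (g : G) (m : ℕ) (hm : 0 < m) (p a : X → ℂ)
    (hp : ∀ x, p (g • x) = p x) (ha : ∀ x, ∑ i ∈ Finset.range m, a (g ^ i • x) = 0) :
    ∑ x, conj (p x) * a x = 0 := by
  have h1 : ∀ i : ℕ, ∑ x, conj (p x) * a (g ^ i • x) = ∑ x, conj (p x) * a x := by
    intro i
    have h2 := Equiv.sum_comp (MulAction.toPerm (g ^ i)) (fun y => conj (p y) * a y)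
    rw [← h2]
    refine Finset.sum_congr rfl fun x _ => ?_
    simp only [MulAction.toPerm_apply]
    rw [FA_S21_inv_pow g p hp i x]
  have h3 : (m : ℂ) * ∑ x, conj (p x) * a x = 0 := by
    calc (m : ℂ) * ∑ x, conj (p x) * a x
        = ∑ i ∈ Finset.range m, ∑ x, conj (p x) * a (g ^ i • x) := by
          rw [Finset.sum_congr rfl (fun i _ => h1 i)]
          simp
      _ = ∑ x, conj (p x) * ∑ i ∈ Finset.range m, a (g ^ i • x) := by
          rw [Finset.sum_comm]
          refine Finset.sum_congr rfl fun x _ => ?_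
          rw [Finset.mul_sum]
      _ = 0 := by
          simp [ha]
  rcases mul_eq_zero.mp h3 with h4 | h4
  · exfalso
    have : (m : ℂ) ≠ 0 := by exact_mod_cast hm.ne'
    exact this h4
  · exact h4

/-- Reindexing invariance used for the `t`-term. -/
theorem FA_S21_orth_shift [Fintype X] (g : G) (p a : X → ℂ) (hp : ∀ x, p (g • x) = p x) :
    ∑ x, conj (p x) * a (g • x) = ∑ x, conj (p x) * a x := by
  have h2 := Equiv.sum_comp (MulAction.toPerm g) (fun y => conj (p y) * a y)
  rw [← h2]
  refine Finset.sum_congr rfl fun x _ => ?_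
  simp only [MulAction.toPerm_apply, hp x]

/-- Positivity. -/
theorem FA_S21_pos [Fintype X] (a b : X → ℂ)
    (h : ∑ x, conj (a x) * a x + ∑ x, conj (b x) * b x = 0) : a = 0 ∧ b = 0 := by
  have h1 : ∀ z : ℂ, conj z * z = ((Complex.normSq z : ℝ) : ℂ) := fun z =>
    (Complex.normSq_eq_conj_mul_self).symm
  simp only [h1] at h
  have h2 : (∑ x, Complex.normSq (a x)) + ∑ x, Complex.normSq (b x) = 0 := by
    exact_mod_cast h
  have ha : 0 ≤ ∑ x, Complex.normSq (a x) := Finset.sum_nonneg fun x _ => Complex.normSq_nonneg _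
  have hb : 0 ≤ ∑ x, Complex.normSq (b x) := Finset.sum_nonneg fun x _ => Complex.normSq_nonneg _
  have ha0 : ∑ x, Complex.normSq (a x) = 0 := by linarith
  have hb0 : ∑ x, Complex.normSq (b x) = 0 := by linarith
  constructor
  · ext x
    have := (Finset.sum_eq_zero_iff_of_nonneg (fun x _ => Complex.normSq_nonneg (a x))).mp ha0 x
      (Finset.mem_univ x)
    simpa using this
  · ext x
    have := (Finset.sum_eq_zero_iff_of_nonneg (fun x _ => Complex.normSq_nonneg (b x))).mp hb0 x
      (Finset.mem_univ x)
    simpa using this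

/-- Some positive power of `g` acts trivially on a finite set. -/
theorem FA_S21_exists_pow_fix [Finite X] (g : G) : ∃ m : ℕ, 0 < m ∧ ∀ x : X, g ^ m • x = x := by
  classical
  have : Fintype X := Fintype.ofFinite X
  refine ⟨orderOf (MulAction.toPermHom G X g), orderOf_pos _, fun x => ?_⟩
  have h := pow_orderOf_eq_one (MulAction.toPermHom G X g)
  rw [← map_pow] at h
  have h2 := congrArg (fun σ : Equiv.Perm X => σ x) h
  simpa using h2

end Inv

end Fermat.Agent.S21
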