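import Mathlib
import Fermat.Agent.S21.BoundLinear

/-!
# Item 80 (S21), part 3: the key injectivity statement.
-/

set_option autoImplicit false

open scoped ComplexConjugate

namespace Fermat.Agent.S21

variable {G : Type*} [Group G] (H : Subgroup G)

theorem FA_S21_closure_pair (s t : G) (hgen : Subgroup.closure ({s, t} : Set G) = ⊤) :
    Subgroup.closure ({s, s * t} : Set G) = ⊤ := by
  rw [eq_top_iff, ← hgen, Subgroup.closure_le]
  intro g hg
  rcases hg with hg | hg
  · rw [hg]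
    exact Subgroup.subset_closure (by simp)
  · rw [Set.mem_singleton_iff] at hg
    rw [hg]
    have h1 : s ∈ Subgroup.closure ({s, s * t} : Set G) := Subgroup.subset_closure (by simp)
    have h2 : s * t ∈ Subgroup.closure ({s, s * t} : Set G) := Subgroup.subset_closure (by simp)
    have h3 := Subgroup.mul_mem _ (Subgroup.inv_mem _ h1) h2
    simpa using h3

/-- `Z_ψ` vanishes on powers acting trivially when `ψ` kills the corresponding conjugates. -/
theorem FA_S21_Z_pow_fix (ψ : Additive H →+ ℂ) (g : G)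
    (hψ : ∀ (r : G) (k : ℕ) (h : r⁻¹ * g ^ k * r ∈ H), ψ (Additive.ofMul ⟨_, h⟩) = 0)
    (m : ℕ) (x : G ⧸ H) (hfix : g ^ m • x = x) : FA_S21_Z ψ (g ^ m) x = 0 := by
  have hmem : x.out⁻¹ * g ^ m * x.out ∈ H := by
    have := (FA_S21_cEl H (g ^ m) x).2
    rwa [FA_S21_cEl_of_fix H _ _ hfix] at this
  have h1 : FA_S21_cEl H (g ^ m) x = ⟨x.out⁻¹ * g ^ m * x.out, hmem⟩ :=
    Subtype.ext (FA_S21_cEl_of_fix H _ _ hfix)
  unfold FA_S21_Z
  rw [h1]
  exact hψ _ _ hmem

theorem FA_S21_key [Fintype (G ⧸ H)] (s t : G)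
    (hgen : Subgroup.closure ({s, t} : Set G) = ⊤) (ψ : Additive H →+ ℂ)
    (hψ : ∀ g ∈ ({s, s * t, t} : Set G), ∀ (r : G) (k : ℕ) (h : r⁻¹ * g ^ k * r ∈ H),
      ψ (Additive.ofMul ⟨_, h⟩) = 0)
    (v p q τ : G ⧸ H → ℂ) (hp : ∀ x, p (s • x) = p x) (hq : ∀ x, q ((s * t) • x) = q x)
    (hτ : ∀ x, τ (t • x) = τ x)
    (h1 : ∀ x, FA_S21_Z ψ s x + (v (s • x) - v x) + (p x - τ x) = 0)
    (h2 : ∀ x, FA_S21_Z ψ (s * t) x + (v ((s * t) • x) - v x) + (q x + τ x) = 0)
    (h3 : v ((1 : G) : G ⧸ H) = 0) (h4 : τ ((1 : G) : G ⧸ H) = 0) :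
    ψ = 0 ∧ v = 0 ∧ p = 0 ∧ q = 0 ∧ τ = 0 := by
  have hgen' := FA_S21_closure_pair s t hgen
  -- the modified cocycle
  obtain ⟨Z', hZ'def⟩ : ∃ Z' : G → G ⧸ H → ℂ,
      ∀ g x, Z' g x = FA_S21_Z ψ g x + (v (g • x) - v x) := ⟨_, fun _ _ => rfl⟩
  have hZ' : ∀ g h x, Z' (g * h) x = Z' g (h • x) + Z' h x := by
    intro g h x
    rw [hZ'def, hZ'def, hZ'def, FA_S21_Z_mul, mul_smul]
    ring
  have hnorm : ∀ g ∈ ({s, s * t, t} : Set G), ∀ m : ℕ, (∀ x : G ⧸ H, g ^ m • x = x) →
      ∀ x, ∑ i ∈ Finset.range m, Z' g (g ^ i • x) = 0 := by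
    intro g hg m hfix x
    rw [← FA_S21_cocycle_pow Z' hZ' g m x, hZ'def, hfix x,
      FA_S21_Z_pow_fix H ψ g (hψ g hg) m x (hfix x)]
    ring
  obtain ⟨ms, hms, hfs⟩ := FA_S21_exists_pow_fix (X := G ⧸ H) s
  obtain ⟨mu, hmu, hfu⟩ := FA_S21_exists_pow_fix (X := G ⧸ H) (s * t)
  obtain ⟨mt, hmt, hft⟩ := FA_S21_exists_pow_fix (X := G ⧸ H) t
  obtain ⟨a, ha⟩ : ∃ a : G ⧸ H → ℂ, ∀ x, a x = p x - τ x := ⟨_, fun _ => rfl⟩
  obtain ⟨b, hb⟩ : ∃ b : G ⧸ H → ℂ, ∀ x, b x = q x + τ x := ⟨_, fun _ => rfl⟩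
  have haZ : ∀ x, a x = -Z' s x := by
    intro x
    rw [ha, hZ'def]
    linear_combination h1 x
  have hbZ : ∀ x, b x = -Z' (s * t) x := by
    intro x
    rw [hb, hZ'def]
    linear_combination h2 x
  have hcZ : ∀ x, a (t • x) - b x = Z' t x := by
    intro x
    rw [haZ, hbZ, hZ']
    ring
  -- orthogonality relations
  have o1 : ∑ x, conj (p x) * a x = 0 := by
    refine FA_S21_orth s ms hms p a hp fun x => ?_
    have := hnorm s (by simp) ms hfs x
    simp only [haZ, Finset.sum_neg_distrib, this, neg_zero]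
  have o2 : ∑ x, conj (q x) * b x = 0 := by
    refine FA_S21_orth (s * t) mu hmu q b hq fun x => ?_
    have := hnorm (s * t) (by simp) mu hfu x
    simp only [hbZ, Finset.sum_neg_distrib, this, neg_zero]
  have o3 : ∑ x, conj (τ x) * (a (t • x) - b x) = 0 := by
    refine FA_S21_orth t mt hmt τ (fun x => a (t • x) - b x) hτ fun x => ?_
    have := hnorm t (by simp) mt hft x
    simp only [hcZ, this]
  have o4 : ∑ x, conj (τ x) * a (t • x) = ∑ x, conj (τ x) * a x := FA_S21_orth_shift t τ a hτ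
  have o5 : ∑ x, conj (a x) * a x + ∑ x, conj (b x) * b x = 0 := by
    have e1 : ∑ x, conj (a x) * a x = ∑ x, conj (p x) * a x - ∑ x, conj (τ x) * a x := by
      rw [← Finset.sum_sub_distrib]
      refine Finset.sum_congr rfl fun x _ => ?_
      rw [ha x, map_sub]
      ring
    have e2 : ∑ x, conj (b x) * b x = ∑ x, conj (q x) * b x + ∑ x, conj (τ x) * b x := by
      rw [← Finset.sum_add_distrib]
      refine Finset.sum_congr rfl fun x _ => ?_
      rw [hb x, map_add]
      ring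
    have e3 : ∑ x, conj (τ x) * (a (t • x) - b x)
        = ∑ x, conj (τ x) * a (t • x) - ∑ x, conj (τ x) * b x := by
      rw [← Finset.sum_sub_distrib]
      refine Finset.sum_congr rfl fun x _ => ?_
      ring
    rw [e1, e2, o1, o2]
    rw [e3, o4] at o3
    linear_combination -o3
  obtain ⟨ha0, hb0⟩ := FA_S21_pos a b o5
  have hpτ : ∀ x, p x = τ x := by
    intro x
    have := congrFun ha0 x
    rw [ha] at this
    simp only [Pi.zero_apply] at this
    linear_combination this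
  have hqτ : ∀ x, q x = -τ x := by
    intro x
    have := congrFun hb0 x
    rw [hb] at this
    simp only [Pi.zero_apply] at this
    linear_combination this
  -- `τ` is constant, hence zero
  have hτconst : ∀ x y, τ x = τ y := by
    refine FA_S21_const_of_inv ({s, s * t} : Set G) hgen' τ ?_
    intro g hg x
    rcases hg with rfl | hg
    · rw [← hpτ, ← hpτ, hp]
    · rw [Set.mem_singleton_iff] at hg
      subst hg
      have := hq x
      rw [hqτ, hqτ] at this
      linear_combination -this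
  have hτ0 : τ = 0 := by
    ext x
    rw [hτconst x ((1 : G) : G ⧸ H), h4]
    rfl
  have hp0 : p = 0 := by
    ext x
    rw [hpτ, hτ0]
  have hq0 : q = 0 := by
    ext x
    rw [hqτ, hτ0]
    simp
  -- the cocycle `Z'` vanishes
  have hZ'0 : ∀ g x, Z' g x = 0 := by
    refine FA_S21_cocycle_vanish Z' hZ' ({s, s * t} : Set G) hgen' ?_
    intro g hg x
    rcases hg with rfl | hg
    · have := haZ x
      rw [ha0] at this
      simp only [Pi.zero_apply] at this
      linear_combination this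
    · rw [Set.mem_singleton_iff] at hg
      subst hg
      have := hbZ x
      rw [hb0] at this
      simp only [Pi.zero_apply] at this
      linear_combination this
  have hψ0 : ψ = 0 := by
    refine AddMonoidHom.ext fun h => ?_
    obtain ⟨h, rfl⟩ : ∃ h' : H, Additive.ofMul h' = h := ⟨Additive.toMul h, rfl⟩
    have e1 := hZ'0 (h : G) ((1 : G) : G ⧸ H)
    rw [hZ'def, FA_S21_Z_base] at e1
    have hx : (h : G) • (((1 : G) : G ⧸ H)) = ((1 : G) : G ⧸ H) := by
      rw [MulAction.Quotient.smul_coe, smul_eq_mul, mul_one, QuotientGroup.eq]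
      simp
    rw [hx] at e1
    simp only [AddMonoidHom.zero_apply]
    linear_combination e1
  have hv0 : v = 0 := by
    have hvconst : ∀ x y, v x = v y := by
      refine FA_S21_const_of_inv (Set.univ : Set G) (by simp) v ?_
      intro g _ x
      have e1 := hZ'0 g x
      rw [hZ'def, hψ0] at e1
      have e2 : FA_S21_Z (0 : Additive H →+ ℂ) g x = 0 := rfl
      rw [e2] at e1
      linear_combination e1
    ext x
    rw [hvconst x ((1 : G) : G ⧸ H), h3]
    rfl
  exact ⟨hψ0, hv0, hp0, hq0, hτ0⟩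

end Fermat.Agent.S21
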