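import Mathlib
import Fermat.Agent.S21.BoundKey

/-!
# Item 80 (S21), part 4: the generic bound

`G = ⟨s, t⟩`, `H ≤ G` of finite index `n`, `L` a space of additive characters of `H` killing the
elements of `H` conjugate in `G` to powers of `s`, `s t`, `t`.  Then
`dim L + o(s) + o(s t) + o(t) ≤ n + 2`, where `o(g)` is the number of orbits of `⟨g⟩` on `G ⧸ H`.
-/

set_option autoImplicit false

namespace Fermat.Agent.S21

variable {G : Type*} [Group G] (H : Subgroup G)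

/-- The linear map whose injectivity gives the bound. -/
noncomputable def FA_S21_Psi (s t : G) (L : Submodule ℂ (Additive H →+ ℂ)) :
    (L × ((G ⧸ H → ℂ) × (FA_S21_inv s (G ⧸ H) ×
      (FA_S21_inv (s * t) (G ⧸ H) × FA_S21_inv t (G ⧸ H))))) →ₗ[ℂ]
      ((G ⧸ H → ℂ) × (G ⧸ H → ℂ)) × (ℂ × ℂ) where
  toFun d :=
    ((fun x => FA_S21_Z (d.1 : Additive H →+ ℂ) s x + (d.2.1 (s • x) - d.2.1 x)
        + ((d.2.2.1 : G ⧸ H → ℂ) x - (d.2.2.2.2 : G ⧸ H → ℂ) x),
      fun x => FA_S21_Z (d.1 : Additive H →+ ℂ) (s * t) x + (d.2.1 ((s * t) • x) - d.2.1 x)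
        + ((d.2.2.2.1 : G ⧸ H → ℂ) x + (d.2.2.2.2 : G ⧸ H → ℂ) x)),
     (d.2.1 ((1 : G) : G ⧸ H), (d.2.2.2.2 : G ⧸ H → ℂ) ((1 : G) : G ⧸ H)))
  map_add' := by
    intro d e
    refine Prod.ext (Prod.ext (funext fun x => ?_) (funext fun x => ?_)) (Prod.ext ?_ ?_)
    · simp only [Prod.fst_add, Prod.snd_add, Submodule.coe_add, FA_S21_Z_add, Pi.add_apply]
      ring
    · simp only [Prod.fst_add, Prod.snd_add, Submodule.coe_add, FA_S21_Z_add, Pi.add_apply]
      ring
    · simp only [Prod.snd_add, Prod.fst_add, Pi.add_apply]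
    · simp only [Prod.fst_add, Prod.snd_add, Submodule.coe_add, Pi.add_apply]
  map_smul' := by
    intro c d
    refine Prod.ext (Prod.ext (funext fun x => ?_) (funext fun x => ?_)) (Prod.ext ?_ ?_)
    · simp only [Prod.smul_fst, Prod.smul_snd, Submodule.coe_smul, FA_S21_Z_smul, Pi.smul_apply,
        smul_eq_mul, RingHom.id_apply]
      ring
    · simp only [Prod.smul_fst, Prod.smul_snd, Submodule.coe_smul, FA_S21_Z_smul, Pi.smul_apply,
        smul_eq_mul, RingHom.id_apply]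
      ring
    · simp only [Prod.smul_fst, Prod.smul_snd, Pi.smul_apply, smul_eq_mul, RingHom.id_apply]
    · simp only [Prod.smul_fst, Prod.smul_snd, Submodule.coe_smul, Pi.smul_apply, smul_eq_mul,
        RingHom.id_apply]

theorem FA_S21_Psi_injective [Finite (G ⧸ H)] (s t : G)
    (hgen : Subgroup.closure ({s, t} : Set G) = ⊤) (L : Submodule ℂ (Additive H →+ ℂ))
    (hL : ∀ ψ ∈ L, ∀ g ∈ ({s, s * t, t} : Set G), ∀ (r : G) (k : ℕ) (h : r⁻¹ * g ^ k * r ∈ H),
      ψ (Additive.ofMul ⟨_, h⟩) = 0) :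
    Function.Injective (FA_S21_Psi H s t L) := by
  classical
  have : Fintype (G ⧸ H) := Fintype.ofFinite _
  rw [injective_iff_map_eq_zero]
  rintro ⟨ψ, v, p, q, τ⟩ hd
  have e1 := congrArg (fun z => z.1.1) hd
  have e2 := congrArg (fun z => z.1.2) hd
  have e3 := congrArg (fun z => z.2.1) hd
  have e4 := congrArg (fun z => z.2.2) hd
  simp only [FA_S21_Psi, LinearMap.coe_mk, AddHom.coe_mk, Prod.fst_zero, Prod.snd_zero] at e1 e2 e3 e4
  obtain ⟨h1, h2, h3, h4, h5⟩ := FA_S21_key H s t hgen (ψ : Additive H →+ ℂ) (hL ψ ψ.2)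
    v (p : G ⧸ H → ℂ) (q : G ⧸ H → ℂ) (τ : G ⧸ H → ℂ) p.2 q.2 τ.2
    (fun x => congrFun e1 x) (fun x => congrFun e2 x) e3 e4
  refine Prod.ext (Subtype.ext h1) (Prod.ext h2 (Prod.ext (Subtype.ext h3)
    (Prod.ext (Subtype.ext h4) (Subtype.ext h5))))

theorem FA_S21_bound_generic [H.FiniteIndex] (s t : G)
    (hgen : Subgroup.closure ({s, t} : Set G) = ⊤) (L : Submodule ℂ (Additive H →+ ℂ))
    (hL : ∀ ψ ∈ L, ∀ g ∈ ({s, s * t, t} : Set G), ∀ (r : G) (k : ℕ) (h : r⁻¹ * g ^ k * r ∈ H),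
      ψ (Additive.ofMul ⟨_, h⟩) = 0) :
    Module.Finite ℂ L ∧
    Module.finrank ℂ L + Nat.card (MulAction.orbitRel.Quotient (Subgroup.zpowers s) (G ⧸ H))
      + Nat.card (MulAction.orbitRel.Quotient (Subgroup.zpowers (s * t)) (G ⧸ H))
      + Nat.card (MulAction.orbitRel.Quotient (Subgroup.zpowers t) (G ⧸ H)) ≤ H.index + 2 := by
  classical
  have hfin : Finite (G ⧸ H) := inferInstance
  have : Fintype (G ⧸ H) := Fintype.ofFinite _
  have hinj := FA_S21_Psi_injective H s t hgen L hL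
  have hLfin : Module.Finite ℂ L := by
    have hinl : Function.Injective
        ((FA_S21_Psi H s t L).comp (LinearMap.inl ℂ L ((G ⧸ H → ℂ) × (FA_S21_inv s (G ⧸ H) ×
          (FA_S21_inv (s * t) (G ⧸ H) × FA_S21_inv t (G ⧸ H)))))) :=
      hinj.comp LinearMap.inl_injective
    exact Module.Finite.of_injective _ hinl
  refine ⟨hLfin, ?_⟩
  have hle := LinearMap.finrank_le_finrank_of_injective hinj
  have hS : Module.finrank ℂ (FA_S21_inv s (G ⧸ H))
      = Nat.card (MulAction.orbitRel.Quotient (Subgroup.zpowers s) (G ⧸ H)) :=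
    FA_S21_finrank_inv (X := G ⧸ H) s
  have hU : Module.finrank ℂ (FA_S21_inv (s * t) (G ⧸ H))
      = Nat.card (MulAction.orbitRel.Quotient (Subgroup.zpowers (s * t)) (G ⧸ H)) :=
    FA_S21_finrank_inv (X := G ⧸ H) (s * t)
  have hT : Module.finrank ℂ (FA_S21_inv t (G ⧸ H))
      = Nat.card (MulAction.orbitRel.Quotient (Subgroup.zpowers t) (G ⧸ H)) :=
    FA_S21_finrank_inv (X := G ⧸ H) t
  simp only [Module.finrank_prod, Module.finrank_fintype_fun_eq_card, Module.finrank_self,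
    hS, hU, hT] at hle
  have hidx : H.index = Fintype.card (G ⧸ H) := by
    rw [Subgroup.index_eq_card, Nat.card_eq_fintype_card]
  rw [hidx]
  omega

end Fermat.Agent.S21
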