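import Mathlib
import Fermat.Prelude.Def_ModularCurve_PeriodMap
import Fermat.Agent.S21.Bound

/-!
# Item 80 (S21), part 5: the bound for the parabolic characters of `Γ₀(N)`

`dim parabolicHoms + o(S) + o(ST) + o(T) ≤ [SL(2,ℤ) : Γ₀(N)] + 2`.
-/

set_option autoImplicit false

namespace Fermat.Agent.S21

open MatrixGroups ModularCurve.Period

theorem FA_S21_S_pow_four : ModularGroup.S ^ 4 = 1 := by decide

theorem FA_S21_ST_pow_six : (ModularGroup.S * ModularGroup.T) ^ 6 = 1 := by decide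

/-- An additive character kills the conjugates of powers of an element of finite order. -/
theorem FA_S21_kill_torsion {G : Type*} [Group G] (H : Subgroup G) (ψ : Additive H →+ ℂ)
    (g : G) (M : ℕ) (hM : 0 < M) (hg : g ^ M = 1) (r : G) (k : ℕ)
    (h : r⁻¹ * g ^ k * r ∈ H) : ψ (Additive.ofMul ⟨_, h⟩) = 0 := by
  have h1 : (⟨_, h⟩ : H) ^ M = 1 := by
    apply Subtype.ext
    simp only [Subgroup.coe_pow, Subgroup.coe_one]
    have h2 : (r⁻¹ * g ^ k * r) ^ M = r⁻¹ * (g ^ k) ^ M * r := by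
      have := conj_pow (a := r⁻¹) (b := g ^ k) (i := M)
      simpa using this
    rw [h2, ← pow_mul, mul_comm, pow_mul, hg, one_pow]
    simp
  have h3 : M • ψ (Additive.ofMul (⟨_, h⟩ : H)) = 0 := by
    rw [← map_nsmul, ← ofMul_pow, h1]
    simp
  rcases smul_eq_zero.mp h3 with h4 | h4
  · omega
  · exact h4

theorem FA_S21_trace_conj (r A : SL(2, ℤ)) :
    ((r⁻¹ * A * r : SL(2, ℤ)) : Matrix (Fin 2) (Fin 2) ℤ).trace
      = (A : Matrix (Fin 2) (Fin 2) ℤ).trace := by
  rw [Matrix.SpecialLinearGroup.coe_mul, Matrix.trace_mul_comm, ← Matrix.SpecialLinearGroup.coe_mul]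
  congr 2
  group

theorem FA_S21_trace_T_pow (k : ℕ) :
    ((ModularGroup.T ^ k : SL(2, ℤ)) : Matrix (Fin 2) (Fin 2) ℤ).trace = 2 := by
  have h := ModularGroup.coe_T_zpow (k : ℤ)
  rw [zpow_natCast] at h
  rw [show ((ModularGroup.T ^ k : SL(2, ℤ)) : Matrix (Fin 2) (Fin 2) ℤ) = (ModularGroup.T ^ k).1
    from rfl, h, Matrix.trace_fin_two_of]
  norm_num

theorem FA_S21_bound_orbits (N : ℕ) [NeZero N] :
    Module.Finite ℂ (parabolicHoms ℂ (CongruenceSubgroup.Gamma0 N) ℂ) ∧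
    Module.finrank ℂ (parabolicHoms ℂ (CongruenceSubgroup.Gamma0 N) ℂ)
      + Nat.card (MulAction.orbitRel.Quotient (Subgroup.zpowers ModularGroup.S)
          (SL(2, ℤ) ⧸ CongruenceSubgroup.Gamma0 N))
      + Nat.card (MulAction.orbitRel.Quotient
          (Subgroup.zpowers (ModularGroup.S * ModularGroup.T))
          (SL(2, ℤ) ⧸ CongruenceSubgroup.Gamma0 N))
      + Nat.card (MulAction.orbitRel.Quotient (Subgroup.zpowers ModularGroup.T)
          (SL(2, ℤ) ⧸ CongruenceSubgroup.Gamma0 N))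
      ≤ (CongruenceSubgroup.Gamma0 N).index + 2 := by
  have : (CongruenceSubgroup.Gamma0 N).FiniteIndex := inferInstance
  refine FA_S21_bound_generic (CongruenceSubgroup.Gamma0 N) ModularGroup.S ModularGroup.T
    SpecialLinearGroup.SL2Z_generators _ ?_
  intro ψ hψ g hg r k h
  rcases hg with rfl | rfl | hg
  · exact FA_S21_kill_torsion _ ψ _ 4 (by norm_num) FA_S21_S_pow_four r k h
  · exact FA_S21_kill_torsion _ ψ _ 6 (by norm_num) FA_S21_ST_pow_six r k h
  · rw [Set.mem_singleton_iff] at hg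
    subst hg
    refine hψ ⟨_, h⟩ ?_
    show ((r⁻¹ * ModularGroup.T ^ k * r : SL(2, ℤ)) : Matrix (Fin 2) (Fin 2) ℤ).trace ^ 2 = 4
    rw [FA_S21_trace_conj, FA_S21_trace_T_pow]
    norm_num

end Fermat.Agent.S21
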