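import Mathlib
import Fermat.Agent.S21.BoundGamma0
import Fermat.Agent.S24.BInterface

/-!
# Item 80 (S21), part 6: `dim parabolicHoms ≤ 2 · genusFormula N`, from the orbit counts of
S24 Layer B.
-/

set_option autoImplicit false

namespace Fermat.Agent.S21

open MatrixGroups ModularCurve.Period Fermat.Agent.S24

theorem FA_S21_bound (hidx : FA_S24_Target_B_index) (hS : FA_S24_Target_B_S)
    (hST : FA_S24_Target_B_ST) (hT : FA_S24_Target_B_T) (N : ℕ) [NeZero N] :
    Module.Finite ℂ (parabolicHoms ℂ (CongruenceSubgroup.Gamma0 N) ℂ) ∧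
    (Module.finrank ℂ (parabolicHoms ℂ (CongruenceSubgroup.Gamma0 N) ℂ) : ℚ)
      ≤ 2 * ModularCurve.genusFormula N := by
  obtain ⟨hfin, hle⟩ := FA_S21_bound_orbits N
  refine ⟨hfin, ?_⟩
  have h1 := hidx N
  have h2 := hS N
  have h3 := hST N
  have h4 := hT N
  unfold FA_S24_orbits at h2 h3 h4
  have hle' : ((Module.finrank ℂ (parabolicHoms ℂ (CongruenceSubgroup.Gamma0 N) ℂ) : ℕ) : ℚ)
      + (Nat.card (MulAction.orbitRel.Quotient (Subgroup.zpowers ModularGroup.S)
          (SL(2, ℤ) ⧸ CongruenceSubgroup.Gamma0 N)) : ℚ)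
      + (Nat.card (MulAction.orbitRel.Quotient
          (Subgroup.zpowers (ModularGroup.S * ModularGroup.T))
          (SL(2, ℤ) ⧸ CongruenceSubgroup.Gamma0 N)) : ℚ)
      + (Nat.card (MulAction.orbitRel.Quotient (Subgroup.zpowers ModularGroup.T)
          (SL(2, ℤ) ⧸ CongruenceSubgroup.Gamma0 N)) : ℚ)
      ≤ ((CongruenceSubgroup.Gamma0 N).index : ℚ) + 2 := by exact_mod_cast hle
  have h2' : (2 : ℚ) * (Nat.card (MulAction.orbitRel.Quotient (Subgroup.zpowers ModularGroup.S)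
      (SL(2, ℤ) ⧸ CongruenceSubgroup.Gamma0 N)) : ℚ)
      = ((CongruenceSubgroup.Gamma0 N).index : ℚ) + (ModularCurve.nuTwo N : ℚ) := by
    exact_mod_cast h2
  have h3' : (3 : ℚ) * (Nat.card (MulAction.orbitRel.Quotient
      (Subgroup.zpowers (ModularGroup.S * ModularGroup.T))
      (SL(2, ℤ) ⧸ CongruenceSubgroup.Gamma0 N)) : ℚ)
      = ((CongruenceSubgroup.Gamma0 N).index : ℚ) + 2 * (ModularCurve.nuThree N : ℚ) := by
    exact_mod_cast h3
  have h4' : (Nat.card (MulAction.orbitRel.Quotient (Subgroup.zpowers ModularGroup.T)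
      (SL(2, ℤ) ⧸ CongruenceSubgroup.Gamma0 N)) : ℚ) = (ModularCurve.cuspCount N : ℚ) := by
    exact_mod_cast h4
  have h1' : ((CongruenceSubgroup.Gamma0 N).index : ℚ) = (ModularCurve.dedekindPsi N : ℚ) := by
    exact_mod_cast h1
  unfold ModularCurve.genusFormula
  linarith

end Fermat.Agent.S21
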