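import Fermat.Agent.S21.Glue
import Fermat.Agent.S21.BoundGenus
import Fermat.Agent.S24.BIndex
import Fermat.Agent.S24.BFix
import Fermat.Agent.S24.BCusp

/-!
# S20 and S21 from the single inequality `genusFormula N ≤ dim S₂(Γ₀(N))`

Everything else is proved: `2 dim S₂ ≤ dim H¹_par(Γ₀(N), ℂ) ≤ 2 genusFormula N`.
-/

set_option autoImplicit false

namespace FA_S21

open CongruenceSubgroup ModularCurve ModularCurve.Period

/-- `dim H¹_par ≤ 2 g` (unconditional) -/
theorem FA_S21_parabolic_bound (N : ℕ) [NeZero N] :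
    Module.Finite ℂ (parabolicHoms ℂ (Gamma0 N) ℂ) ∧
    (Module.finrank ℂ (parabolicHoms ℂ (Gamma0 N) ℂ) : ℚ) ≤ 2 * genusFormula N :=
  Fermat.Agent.S21.FA_S21_bound Fermat.Agent.S24.FA_S24_B_index Fermat.Agent.S24.FA_S24_B_S
    Fermat.Agent.S24.FA_S24_B_ST Fermat.Agent.S24.FA_S24_B_T N

/-- `S₂(Γ₀(N))` is finite dimensional (unconditional) -/
theorem FA_S21_cuspForm_finiteDimensional (N : ℕ) [NeZero N] :
    FiniteDimensional ℂ (CuspForm (Gamma0 N) 2) := by
  haveI : FiniteDimensional ℂ (parabolicHoms ℂ (Gamma0 N) ℂ) := (FA_S21_parabolic_bound N).1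
  exact FA_S21_finiteDimensional N

/-- `dim S₂(Γ₀(N)) ≤ genusFormula N` (unconditional) -/
theorem FA_S21_finrank_le_genus (N : ℕ) [NeZero N] :
    (Module.finrank ℂ (CuspForm (Gamma0 N) 2) : ℚ) ≤ genusFormula N := by
  obtain ⟨hfin, hdim⟩ := FA_S21_parabolic_bound N
  haveI : FiniteDimensional ℂ (parabolicHoms ℂ (Gamma0 N) ℂ) := hfin
  have h := FA_S21_two_mul_finrank_le N
  have h' : (2 : ℚ) * (Module.finrank ℂ (CuspForm (Gamma0 N) 2) : ℚ) ≤
      (Module.finrank ℂ (parabolicHoms ℂ (Gamma0 N) ℂ) : ℚ) := by exact_mod_cast h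
  linarith

/-- **S20 from the lower bound** -/
theorem FA_S21_S20_of_ge (N : ℕ) [NeZero N]
    (h : genusFormula N ≤ (Module.finrank ℂ (CuspForm (Gamma0 N) 2) : ℚ)) :
    (Module.finrank ℂ (CuspForm (Gamma0 N) 2) : ℚ) = genusFormula N :=
  le_antisymm (FA_S21_finrank_le_genus N) h

/-- **S21 from the lower bound** -/
theorem FA_S21_of_ge (N : ℕ) [NeZero N]
    (h : genusFormula N ≤ (Module.finrank ℂ (CuspForm (Gamma0 N) 2) : ℚ)) :
    Function.Injective (periodHomPair N) ∧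
      LinearMap.range (periodHomPair N) = parabolicHoms ℂ (Gamma0 N) ℂ :=
  FA_S21_of_bound N (FA_S21_parabolic_bound N).1 (FA_S21_parabolic_bound N).2
    (FA_S21_S20_of_ge N h)

end FA_S21
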