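import Fermat.Agent.S21.Inj
import Fermat.Prelude.Def_ModularCurve_GenusNumerics

/-!
# S21: the final assembly, from the dimension formula (S20) and the group cohomology bound
-/

set_option autoImplicit false

namespace FA_S21

open UpperHalfPlane Filter Topology Function Matrix.SpecialLinearGroup CongruenceSubgroup
open ModularCurve ModularCurve.Period ModularGroup
open scoped ModularForm MatrixGroups Manifold Pointwise

section

variable (N : ℕ) [NeZero N]

theorem FA_S21_range_le : LinearMap.range (periodHomPair N) ≤ parabolicHoms ℂ (Gamma0 N) ℂ := by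
  rintro _ ⟨⟨f, g⟩, rfl⟩
  rw [FA_S21_periodHomPair_apply]
  have hf := FA_S21_periodMap_mem_parabolicHoms N f
  have hg := FA_S21_periodMap_mem_parabolicHoms N g
  exact Submodule.add_mem _
    (Submodule.add_mem _ hf (charInvolution_mem_parabolicHoms N ℂ ℂ hf))
    (Submodule.sub_mem _ hg (charInvolution_mem_parabolicHoms N ℂ ℂ hg))

/-- the pair map, corestricted to the parabolic homomorphisms -/
noncomputable def FA_S21_pairRestrict :
    (CuspForm (Gamma0 N) 2 × CuspForm (Gamma0 N) 2) →ₗ[ℂ] parabolicHoms ℂ (Gamma0 N) ℂ :=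
  (periodHomPair N).codRestrict (parabolicHoms ℂ (Gamma0 N) ℂ)
    (fun x => FA_S21_range_le N ⟨x, rfl⟩)

theorem FA_S21_pairRestrict_injective : Function.Injective (FA_S21_pairRestrict N) := by
  intro x y h
  apply FA_S21_periodHomPair_injective N
  have := congrArg Subtype.val h
  exact this

/-- `S₂(Γ₀(N))` is finite dimensional as soon as the parabolic homomorphisms are -/
theorem FA_S21_finiteDimensional_prod [FiniteDimensional ℂ (parabolicHoms ℂ (Gamma0 N) ℂ)] :
    FiniteDimensional ℂ (CuspForm (Gamma0 N) 2 × CuspForm (Gamma0 N) 2) :=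
  FiniteDimensional.of_injective (FA_S21_pairRestrict N) (FA_S21_pairRestrict_injective N)

theorem FA_S21_finiteDimensional [FiniteDimensional ℂ (parabolicHoms ℂ (Gamma0 N) ℂ)] :
    FiniteDimensional ℂ (CuspForm (Gamma0 N) 2) := by
  haveI := FA_S21_finiteDimensional_prod N
  exact FiniteDimensional.of_injective
    (LinearMap.inl ℂ (CuspForm (Gamma0 N) 2) (CuspForm (Gamma0 N) 2)) LinearMap.inl_injective

/-- `2 dim S₂ ≤ dim H¹_par` (Eichler–Shimura injectivity) -/
theorem FA_S21_two_mul_finrank_le [FiniteDimensional ℂ (parabolicHoms ℂ (Gamma0 N) ℂ)] :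
    2 * Module.finrank ℂ (CuspForm (Gamma0 N) 2) ≤
      Module.finrank ℂ (parabolicHoms ℂ (Gamma0 N) ℂ) := by
  haveI := FA_S21_finiteDimensional N
  have h := LinearMap.finrank_le_finrank_of_injective (FA_S21_pairRestrict_injective N)
  rw [Module.finrank_prod] at h
  omega

/-- **S21 from S20 and the bound of item 80** -/
theorem FA_S21_of_bound (hfin : FiniteDimensional ℂ (parabolicHoms ℂ (Gamma0 N) ℂ))
    (hdim : (Module.finrank ℂ (parabolicHoms ℂ (Gamma0 N) ℂ) : ℚ) ≤ 2 * genusFormula N)
    (hS20 : (Module.finrank ℂ (CuspForm (Gamma0 N) 2) : ℚ) = genusFormula N) :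
    Function.Injective (periodHomPair N) ∧
      LinearMap.range (periodHomPair N) = parabolicHoms ℂ (Gamma0 N) ℂ := by
  refine ⟨FA_S21_periodHomPair_injective N, ?_⟩
  haveI := FA_S21_finiteDimensional N
  refine Submodule.eq_of_le_of_finrank_le (FA_S21_range_le N) ?_
  rw [LinearMap.finrank_range_of_inj (FA_S21_periodHomPair_injective N), Module.finrank_prod]
  have h1 : (Module.finrank ℂ (parabolicHoms ℂ (Gamma0 N) ℂ) : ℚ) ≤
      2 * (Module.finrank ℂ (CuspForm (Gamma0 N) 2) : ℚ) := by rw [hS20]; exact hdim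
  have h2 : (Module.finrank ℂ (parabolicHoms ℂ (Gamma0 N) ℂ) : ℚ) ≤
      ((2 * Module.finrank ℂ (CuspForm (Gamma0 N) 2) : ℕ) : ℚ) := by
    push_cast; exact h1
  have h3 : Module.finrank ℂ (parabolicHoms ℂ (Gamma0 N) ℂ) ≤
      2 * Module.finrank ℂ (CuspForm (Gamma0 N) 2) := by exact_mod_cast h2
  omega

end

end FA_S21
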