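import Fermat.Agent.S21.Exists
import Fermat.Prelude.Def_ModularCurve_PeriodHomPair

/-!
# S21: the period map is linear
-/

set_option autoImplicit false

namespace FA_S21

open UpperHalfPlane Filter Topology Function Matrix.SpecialLinearGroup CongruenceSubgroup
open ModularCurve ModularCurve.Period
open scoped ModularForm MatrixGroups Manifold Pointwise

/-- the normalised primitive of a cusp form -/
noncomputable def FA_S21_prim (N : ℕ) [NeZero N] (f : CuspForm (Gamma0 N) 2) : ℍ → ℂ :=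
  (FA_S21_exists_hasEquivariantPrimitive N f).choose

theorem FA_S21_prim_spec (N : ℕ) [NeZero N] (f : CuspForm (Gamma0 N) 2) :
    HasEquivariantPrimitive N f (FA_S21_prim N f) :=
  (FA_S21_exists_hasEquivariantPrimitive N f).choose_spec

theorem FA_S21_prim_isPrim (N : ℕ) [NeZero N] (f : CuspForm (Gamma0 N) 2) :
    FA_S21_IsPrim f (FA_S21_prim N f) := (FA_S21_prim_spec N f).1

theorem FA_S21_prim_tendsto (N : ℕ) [NeZero N] (f : CuspForm (Gamma0 N) 2) :
    Tendsto (FA_S21_prim N f) atImInfty (𝓝 0) := (FA_S21_prim_spec N f).2.1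

theorem FA_S21_prim_tendsto_cusp (N : ℕ) [NeZero N] (f : CuspForm (Gamma0 N) 2) (δ : SL(2, ℤ)) :
    ∃ L : ℂ, Tendsto (fun w : ℍ => FA_S21_prim N f (δ • w)) atImInfty (𝓝 L) :=
  (FA_S21_prim_spec N f).2.2.2 δ

theorem FA_S21_prim_eq (N : ℕ) [NeZero N] (f : CuspForm (Gamma0 N) 2) {F : ℍ → ℂ}
    (hF : FA_S21_IsPrim f F) (h0 : Tendsto F atImInfty (𝓝 0)) : FA_S21_prim N f = F :=
  FA_S21_prim_unique (FA_S21_prim_isPrim N f) hF (FA_S21_prim_tendsto N f) h0

theorem FA_S21_prim_add (N : ℕ) [NeZero N] (f g : CuspForm (Gamma0 N) 2) :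
    FA_S21_prim N (f + g) = FA_S21_prim N f + FA_S21_prim N g := by
  apply FA_S21_prim_eq
  · have := (FA_S21_prim_isPrim N f).add (FA_S21_prim_isPrim N g)
    exact this
  · have := (FA_S21_prim_tendsto N f).add (FA_S21_prim_tendsto N g)
    rw [add_zero] at this
    exact this

theorem FA_S21_prim_smul (N : ℕ) [NeZero N] (c : ℂ) (f : CuspForm (Gamma0 N) 2) :
    FA_S21_prim N (c • f) = c • FA_S21_prim N f := by
  apply FA_S21_prim_eq
  · have := (FA_S21_prim_isPrim N f).const_smul c
    exact this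
  · have := (FA_S21_prim_tendsto N f).const_smul c
    rw [smul_zero] at this
    exact this

/-- the value of the period map -/
theorem FA_S21_periodMap_apply (N : ℕ) [NeZero N] (f : CuspForm (Gamma0 N) 2) (γ : Gamma0 N) :
    periodMap N f (Additive.ofMul γ) =
      FA_S21_prim N f ((γ : SL(2, ℤ)) • UpperHalfPlane.I) - FA_S21_prim N f UpperHalfPlane.I := by
  obtain ⟨F₀, h₀, hP⟩ := periodMap_def N f (FA_S21_prim_spec N f)
  have hF₀ : FA_S21_prim N f = F₀ := FA_S21_prim_eq N f h₀.1 h₀.2.1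
  rw [hP, IsEquivariantPrimitive.periodHom_apply, IsEquivariantPrimitive.period, hF₀]

/-- the period at an arbitrary base point -/
theorem FA_S21_periodMap_apply' (N : ℕ) [NeZero N] (f : CuspForm (Gamma0 N) 2) (γ : Gamma0 N)
    (z : ℍ) :
    periodMap N f (Additive.ofMul γ) =
      FA_S21_prim N f ((γ : SL(2, ℤ)) • z) - FA_S21_prim N f z := by
  rw [FA_S21_periodMap_apply]
  obtain ⟨c, hc⟩ := (FA_S21_prim_spec N f).2.2.1 γ
  rw [hc z, hc UpperHalfPlane.I]

/-- the linear period map -/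
noncomputable def FA_S21_pml (N : ℕ) [NeZero N] :
    CuspForm (Gamma0 N) 2 →ₗ[ℂ] (Additive (Gamma0 N) →+ ℂ) where
  toFun := periodMap N
  map_add' f g := by
    refine AddMonoidHom.ext fun γ => ?_
    obtain ⟨γ, rfl⟩ := Additive.ofMul.surjective γ
    rw [AddMonoidHom.add_apply, FA_S21_periodMap_apply, FA_S21_periodMap_apply,
      FA_S21_periodMap_apply, FA_S21_prim_add]
    simp only [Pi.add_apply]
    ring
  map_smul' c f := by
    refine AddMonoidHom.ext fun γ => ?_
    obtain ⟨γ, rfl⟩ := Additive.ofMul.surjective γ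
    rw [RingHom.id_apply, AddMonoidHom.smul_apply, FA_S21_periodMap_apply, FA_S21_periodMap_apply,
      FA_S21_prim_smul]
    simp only [Pi.smul_apply, smul_eq_mul]
    ring

@[simp] theorem FA_S21_pml_apply (N : ℕ) [NeZero N] (f : CuspForm (Gamma0 N) 2) :
    FA_S21_pml N f = periodMap N f := rfl

theorem FA_S21_existsPeriodMapLinear (N : ℕ) [NeZero N] : ExistsPeriodMapLinear N :=
  ⟨FA_S21_pml N, fun _ => rfl⟩

/-- the pair map, unfolded -/
theorem FA_S21_periodHomPair_apply (N : ℕ) [NeZero N] (f g : CuspForm (Gamma0 N) 2) :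
    periodHomPair N (f, g) =
      (periodMap N f + charInvolution N ℂ ℂ (periodMap N f)) +
      (periodMap N g - charInvolution N ℂ ℂ (periodMap N g)) := by
  obtain ⟨pml, hpml, hP⟩ := periodHomPair_def N (FA_S21_existsPeriodMapLinear N)
  rw [hP]
  simp only [LinearMap.coprod_apply, LinearMap.comp_apply, LinearMap.add_apply,
    LinearMap.sub_apply, LinearMap.id_apply, hpml]

end FA_S21
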