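import Fermat.Agent.S21.Limit

/-!
# S21: every weight 2 cusp form on `Γ₀(N)` has a normalised equivariant primitive
-/

set_option autoImplicit false

namespace FA_S21

open UpperHalfPlane Filter Topology Function Matrix.SpecialLinearGroup CongruenceSubgroup
open scoped ModularForm MatrixGroups Manifold Pointwise

/-- limits at all cusps for a primitive of a cusp form -/
theorem FA_S21_tendsto_cusp (N : ℕ) [NeZero N] (f : CuspForm (Gamma0 N) 2) {F : ℍ → ℂ}
    (hF : FA_S21_IsPrim f F) (δ : SL(2, ℤ)) :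
    ∃ L : ℂ, Tendsto (fun w : ℍ => F (δ • w)) atImInfty (𝓝 L) := by
  have hprim := hF.slash δ
  have harith : ((ConjAct.toConjAct (mapGL ℝ δ : GL (Fin 2) ℝ)⁻¹) •
      (Gamma0 N : Subgroup (GL (Fin 2) ℝ))).IsArithmetic := by
    simpa [(show Rat.castHom ℝ = algebraMap ℚ ℝ by rfl), map_inv, map_mapGL]
      using! Subgroup.IsArithmetic.conj
        (Gamma0 N : Subgroup (GL (Fin 2) ℝ)) (mapGL ℚ δ)⁻¹
  let fδ := CuspForm.translate f (mapGL ℝ δ)
  have hcoe : (⇑fδ : ℍ → ℂ) = (⇑f ∣[(2 : ℤ)] δ) := rfl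
  have hper := SlashInvariantFormClass.periodic_comp_ofComplex fδ
    (Subgroup.strictWidthInfty_mem_strictPeriods _)
  have hpos := Subgroup.strictWidthInfty_pos
    ((ConjAct.toConjAct (mapGL ℝ δ : GL (Fin 2) ℝ)⁻¹) •
      (Gamma0 N : Subgroup (GL (Fin 2) ℝ)))
  have hhol : MDifferentiable 𝓘(ℂ) 𝓘(ℂ) (⇑fδ : ℍ → ℂ) := ModularFormClass.holo fδ
  have hzero : IsZeroAtImInfty (⇑fδ : ℍ → ℂ) := by
    rw [hcoe]
    exact CuspFormClass.zero_at_infty_slash f δ
  rw [hcoe] at hper hhol hzero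
  exact hprim.tendsto hpos hhol hper hzero

/-- equivariance of a primitive of a cusp form -/
theorem FA_S21_equivariant (N : ℕ) [NeZero N] (f : CuspForm (Gamma0 N) 2) {F : ℍ → ℂ}
    (hF : FA_S21_IsPrim f F) :
    ModularCurve.Period.IsEquivariantPrimitive (Gamma0 N) F := by
  intro γ
  have hprim := hF.slash (γ : SL(2, ℤ))
  have hinv : (⇑f ∣[(2 : ℤ)] (γ : SL(2, ℤ))) = ⇑f := by
    rw [ModularForm.SL_slash]
    exact SlashInvariantFormClass.slash_action_eq f _ ⟨γ, γ.2, rfl⟩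
  rw [hinv] at hprim
  refine ⟨F ((γ : SL(2, ℤ)) • UpperHalfPlane.I) - F UpperHalfPlane.I, fun z => ?_⟩
  exact hprim.sub_const_of_eq hF z UpperHalfPlane.I

theorem FA_S21_exists_hasEquivariantPrimitive (N : ℕ) [NeZero N] (f : CuspForm (Gamma0 N) 2) :
    ∃ F : ℍ → ℂ, ModularCurve.HasEquivariantPrimitive N f F := by
  obtain ⟨F₁, hF₁⟩ := FA_S21_exists_prim f (ModularFormClass.holo f)
  obtain ⟨L₁, hL₁⟩ := FA_S21_tendsto_cusp N f hF₁ 1
  simp only [one_smul] at hL₁
  have hF := hF₁.sub_const L₁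
  refine ⟨fun τ => F₁ τ - L₁, hF, ?_, FA_S21_equivariant N f hF, ?_⟩
  · simpa using hL₁.sub_const L₁
  · intro δ
    obtain ⟨L, hL⟩ := FA_S21_tendsto_cusp N f hF₁ δ
    exact ⟨L - L₁, hL.sub_const L₁⟩

/-- uniqueness of the normalised primitive -/
theorem FA_S21_prim_unique {f F F' : ℍ → ℂ} (hF : FA_S21_IsPrim f F) (hF' : FA_S21_IsPrim f F')
    (h0 : Tendsto F atImInfty (𝓝 0)) (h0' : Tendsto F' atImInfty (𝓝 0)) : F = F' := by
  funext τ
  have hconst := hF.sub_const_of_eq hF'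
  have hlim : Tendsto (fun z => F z - F' z) atImInfty (𝓝 (0 - 0)) := h0.sub h0'
  have hlim' : Tendsto (fun z => F z - F' z) atImInfty (𝓝 (F τ - F' τ)) := by
    have : (fun z => F z - F' z) = fun _ => F τ - F' τ := by
      funext z; exact hconst z τ
    rw [this]
    exact tendsto_const_nhds
  have := tendsto_nhds_unique hlim' hlim
  rw [sub_zero] at this
  exact sub_eq_zero.mp this

end FA_S21
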