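import Fermat.Agent.S21.Reflect

/-!
# S21: injectivity of the Eichler–Shimura pair map
-/

set_option autoImplicit false

namespace FA_S21

open UpperHalfPlane Filter Topology Function Matrix.SpecialLinearGroup CongruenceSubgroup
open ModularCurve ModularCurve.Period ModularGroup ComplexConjugate
open scoped ModularForm MatrixGroups Manifold Pointwise

section

variable (N : ℕ) [NeZero N]

/-- limits at cusps: sums, differences -/
lemma FA_S21_tendsto_cusp_add {A B : ℍ → ℂ}
    (hA : ∀ δ : SL(2, ℤ), ∃ L : ℂ, Tendsto (fun w : ℍ => A (δ • w)) atImInfty (𝓝 L))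
    (hB : ∀ δ : SL(2, ℤ), ∃ L : ℂ, Tendsto (fun w : ℍ => B (δ • w)) atImInfty (𝓝 L))
    (δ : SL(2, ℤ)) : ∃ L : ℂ, Tendsto (fun w : ℍ => (A + B) (δ • w)) atImInfty (𝓝 L) := by
  obtain ⟨L, hL⟩ := hA δ
  obtain ⟨L', hL'⟩ := hB δ
  exact ⟨L + L', hL.add hL'⟩

lemma FA_S21_tendsto_cusp_sub {A B : ℍ → ℂ}
    (hA : ∀ δ : SL(2, ℤ), ∃ L : ℂ, Tendsto (fun w : ℍ => A (δ • w)) atImInfty (𝓝 L))
    (hB : ∀ δ : SL(2, ℤ), ∃ L : ℂ, Tendsto (fun w : ℍ => B (δ • w)) atImInfty (𝓝 L))
    (δ : SL(2, ℤ)) : ∃ L : ℂ, Tendsto (fun w : ℍ => (A - B) (δ • w)) atImInfty (𝓝 L) := by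
  obtain ⟨L, hL⟩ := hA δ
  obtain ⟨L', hL'⟩ := hB δ
  exact ⟨L - L', hL.sub hL'⟩

lemma FA_S21_tendsto_cusp_smul {A : ℍ → ℂ} (c : ℂ)
    (hA : ∀ δ : SL(2, ℤ), ∃ L : ℂ, Tendsto (fun w : ℍ => A (δ • w)) atImInfty (𝓝 L))
    (δ : SL(2, ℤ)) : ∃ L : ℂ, Tendsto (fun w : ℍ => (c • A) (δ • w)) atImInfty (𝓝 L) := by
  obtain ⟨L, hL⟩ := hA δ
  exact ⟨c • L, hL.const_smul c⟩

/-- the key vanishing statement: if `P f + P g + ι (P f - P g) = 0` then `f = g = 0` -/
theorem FA_S21_eq_zero_of_pair (f g : CuspForm (Gamma0 N) 2)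
    (h : ∀ γ : Gamma0 N, periodMap N f (Additive.ofMul γ) + periodMap N g (Additive.ofMul γ) =
      -(periodMap N f (Additive.ofMul (jConjGamma0 N γ)) -
        periodMap N g (Additive.ofMul (jConjGamma0 N γ)))) :
    f = 0 ∧ g = 0 := by
  set F := FA_S21_prim N f with hFdef
  set G := FA_S21_prim N g with hGdef
  have hF : FA_S21_IsPrim f F := FA_S21_prim_isPrim N f
  have hG : FA_S21_IsPrim g G := FA_S21_prim_isPrim N g
  have hFc := FA_S21_prim_tendsto_cusp N f
  have hGc := FA_S21_prim_tendsto_cusp N g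
  have hK : FA_S21_IsPrim (⇑f + ⇑g) (F + G) := hF.add hG
  have hH : FA_S21_IsPrim (⇑f - ⇑g) (F - G) := hF.sub hG
  have hHc := hH.refl
  have hKc := FA_S21_tendsto_cusp_add hFc hGc
  have hHcc := FA_S21_refl_tendsto (FA_S21_tendsto_cusp_sub hFc hGc)
  -- periods
  have hperK : ∀ (γ : Gamma0 N) (z : ℍ), (F + G) ((γ : SL(2, ℤ)) • z) - (F + G) z =
      periodMap N f (Additive.ofMul γ) + periodMap N g (Additive.ofMul γ) := by
    intro γ z
    rw [FA_S21_periodMap_apply' N f γ z, FA_S21_periodMap_apply' N g γ z]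
    simp only [Pi.add_apply]
    ring
  have hperH : ∀ (γ : Gamma0 N) (z : ℍ),
      FA_S21_refl (F - G) ((γ : SL(2, ℤ)) • z) - FA_S21_refl (F - G) z =
      conj (periodMap N f (Additive.ofMul (jConjGamma0 N γ)) -
        periodMap N g (Additive.ofMul (jConjGamma0 N γ))) := by
    intro γ z
    rw [FA_S21_refl_period, FA_S21_periodMap_apply' N f (jConjGamma0 N γ) (J • z),
      FA_S21_periodMap_apply' N g (jConjGamma0 N γ) (J • z)]
    simp only [Pi.sub_apply, jConjGamma0_coe]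
    congr 1
    ring
  -- first function
  have h1 := FA_S21_eq_zero_of_re_periods N (hK.add hHc)
    (by
      intro γ hγ
      refine ⟨-(periodMap N f (Additive.ofMul (jConjGamma0 N ⟨γ, hγ⟩)) -
        periodMap N g (Additive.ofMul (jConjGamma0 N ⟨γ, hγ⟩))) +
        conj (periodMap N f (Additive.ofMul (jConjGamma0 N ⟨γ, hγ⟩)) -
        periodMap N g (Additive.ofMul (jConjGamma0 N ⟨γ, hγ⟩))), ?_, fun z => ?_⟩
      · simp only [Complex.add_re, Complex.neg_re, Complex.conj_re]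
        ring
      · have e1 := hperK ⟨γ, hγ⟩ z
        have e2 := hperH ⟨γ, hγ⟩ z
        simp only [Pi.add_apply] at e1 ⊢
        rw [show F (γ • z) + G (γ • z) + FA_S21_refl (F - G) (γ • z) -
          (F z + G z + FA_S21_refl (F - G) z) =
          (F (γ • z) + G (γ • z) - (F z + G z)) +
          (FA_S21_refl (F - G) (γ • z) - FA_S21_refl (F - G) z) by ring, e1, e2, h ⟨γ, hγ⟩])
    (FA_S21_tendsto_cusp_add hKc hHcc)
  -- second function
  have h2 := FA_S21_eq_zero_of_re_periods N ((hK.sub hHc).const_smul Complex.I)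
    (by
      intro γ hγ
      refine ⟨Complex.I * (-(periodMap N f (Additive.ofMul (jConjGamma0 N ⟨γ, hγ⟩)) -
        periodMap N g (Additive.ofMul (jConjGamma0 N ⟨γ, hγ⟩))) -
        conj (periodMap N f (Additive.ofMul (jConjGamma0 N ⟨γ, hγ⟩)) -
        periodMap N g (Additive.ofMul (jConjGamma0 N ⟨γ, hγ⟩)))), ?_, fun z => ?_⟩
      · simp only [Complex.mul_re, Complex.I_re, Complex.I_im, Complex.sub_im, Complex.neg_im,
          Complex.conj_im]
        ring
      · have e1 := hperK ⟨γ, hγ⟩ z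
        have e2 := hperH ⟨γ, hγ⟩ z
        simp only [Pi.add_apply] at e1
        simp only [Pi.smul_apply, Pi.sub_apply, Pi.add_apply, smul_eq_mul]
        rw [show Complex.I * (F (γ • z) + G (γ • z) - FA_S21_refl (F - G) (γ • z)) -
          Complex.I * (F z + G z - FA_S21_refl (F - G) z) =
          Complex.I * ((F (γ • z) + G (γ • z) - (F z + G z)) -
          (FA_S21_refl (F - G) (γ • z) - FA_S21_refl (F - G) z)) by ring, e1, e2, h ⟨γ, hγ⟩])
    (FA_S21_tendsto_cusp_smul Complex.I (FA_S21_tendsto_cusp_sub hKc hHcc))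
  -- conclusion
  have hsum : ∀ τ : ℍ, f τ + g τ = 0 ∧ FA_S21_refl (⇑f - ⇑g) τ = 0 := by
    intro τ
    have a1 := h1 τ
    have a2 := h2 τ
    simp only [Pi.add_apply, Pi.smul_apply, Pi.sub_apply, smul_eq_mul] at a1 a2
    have a2' : f τ + g τ - -FA_S21_refl (⇑f - ⇑g) τ = 0 := by
      rcases mul_eq_zero.mp a2 with h | h
      · exact absurd h Complex.I_ne_zero
      · exact h
    constructor
    · linear_combination (1 / 2 : ℂ) * a1 + (1 / 2 : ℂ) * a2'
    · linear_combination (-1 / 2 : ℂ) * a1 + (1 / 2 : ℂ) * a2'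
  have hdiff : ∀ τ : ℍ, f τ - g τ = 0 := by
    intro τ
    have := (hsum (J • τ)).2
    rw [FA_S21_refl_apply, FA_S21_J_smul_J_smul] at this
    have h3 := congrArg conj this
    simpa using h3
  constructor
  · ext τ
    have a := (hsum τ).1
    have b := hdiff τ
    show f τ = 0
    linear_combination (1 / 2 : ℂ) * a + (1 / 2 : ℂ) * b
  · ext τ
    have a := (hsum τ).1
    have b := hdiff τ
    show g τ = 0
    linear_combination (1 / 2 : ℂ) * a - (1 / 2 : ℂ) * b

theorem FA_S21_periodHomPair_injective : Function.Injective (periodHomPair N) := by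
  rw [injective_iff_map_eq_zero]
  rintro ⟨f, g⟩ hfg
  rw [FA_S21_periodHomPair_apply] at hfg
  have key := FA_S21_eq_zero_of_pair N f g (by
    intro γ
    have := DFunLike.congr_fun hfg (Additive.ofMul γ)
    simp only [AddMonoidHom.add_apply, AddMonoidHom.sub_apply, charInvolution_apply,
      AddMonoidHom.zero_apply, toMul_ofMul] at this
    linear_combination this)
  rw [key.1, key.2]
  rfl

end

end FA_S21
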