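import Fermat.Agent.S21.Prim

/-!
# S21: a primitive of a periodic, exponentially decaying holomorphic function is periodic and has
a limit at `i∞`
-/

set_option autoImplicit false

namespace FA_S21

open UpperHalfPlane Filter Topology Function Matrix.SpecialLinearGroup
open scoped ModularForm MatrixGroups Manifold

/-- the primitive as an S22 "Eichler integral" of weight `0 + 2` -/
lemma FA_S21_IsPrim.isEichler {f F : ℍ → ℂ} (hF : FA_S21_IsPrim f F) :
    FA_S22.FA_S22_IsEichler 0 f (fun τ _ => F τ) := by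
  intro τ j
  have h := hF τ
  have hpw : FA_S22.FA_S22_pw 0 (τ : ℂ) j = 1 := by
    simp [FA_S22.FA_S22_pw]
  rw [hpw, mul_one]
  exact h

lemma FA_S21_diag_eq (F : ℍ → ℂ) : FA_S22.FA_S22_diag 0 (fun τ _ => F τ) = F := by
  funext τ
  simp [FA_S22.FA_S22_diag, FA_S22.FA_S22_ev]

/-- translation by a real number preserves primitives of periodic functions -/
lemma FA_S21_IsPrim.vadd {f F : ℍ → ℂ} (hF : FA_S21_IsPrim f F) {h : ℝ}
    (hper : Periodic (f ∘ ofComplex) (h : ℂ)) :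
    FA_S21_IsPrim f (fun τ => F (h +ᵥ τ)) := by
  intro τ
  have hτh : 0 < ((τ : ℂ) + h).im := by simpa using τ.im_pos
  have h1 := hF ⟨(τ : ℂ) + h, hτh⟩
  have h2 : HasDerivAt (fun w : ℂ => w + (h : ℂ)) 1 (τ : ℂ) := (hasDerivAt_id _).add_const _
  have h3 := HasDerivAt.comp (τ : ℂ) (h₂ := F ∘ ofComplex) (h := fun w : ℂ => w + (h : ℂ))
    (by simpa using h1) h2
  have hval : f ⟨(τ : ℂ) + h, hτh⟩ = f τ := by
    have := hper (τ : ℂ)
    simp only [Function.comp_apply] at this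
    rw [ofComplex_apply_of_im_pos hτh, ofComplex_apply] at this
    exact this
  rw [hval, mul_one] at h3
  refine h3.congr_of_eventuallyEq ?_
  have hopen : {z : ℂ | 0 < z.im} ∈ 𝓝 (τ : ℂ) := isOpen_upperHalfPlaneSet.mem_nhds τ.im_pos
  filter_upwards [hopen] with w hw
  have hw' : 0 < (w + (h : ℂ)).im := by simpa using hw
  simp only [Function.comp_apply]
  rw [ofComplex_apply_of_im_pos hw, ofComplex_apply_of_im_pos hw']
  congr 1
  ext
  simp [add_comm]

/-- mean value estimate on the horizontal segment -/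
lemma FA_S21_norm_sub_le {f F : ℍ → ℂ} (hF : FA_S21_IsPrim f F) {M A h : ℝ} (hA : 0 < A)
    (hh : 0 ≤ h) (hf : ∀ z : ℍ, A ≤ z.im → ‖f z‖ ≤ M) (τ : ℍ) (hτ : A ≤ τ.im) :
    ‖F (h +ᵥ τ) - F τ‖ ≤ M * h := by
  let s : Set ℂ := {w : ℂ | A ≤ w.im}
  have hs : Convex ℝ s := convex_halfSpace_im_ge A
  have hd : ∀ w ∈ s, HasDerivWithinAt (F ∘ ofComplex) (f (ofComplex w)) s w := by
    intro w hw
    have hw0 : 0 < w.im := lt_of_lt_of_le hA hw
    have := hF ⟨w, hw0⟩
    rw [ofComplex_apply_of_im_pos hw0]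
    exact this.hasDerivWithinAt
  have hb : ∀ w ∈ s, ‖f (ofComplex w)‖ ≤ M := by
    intro w hw
    have hw0 : 0 < w.im := lt_of_lt_of_le hA hw
    apply hf
    rw [ofComplex_apply_of_im_pos hw0]
    exact hw
  have h1 : (τ : ℂ) ∈ s := hτ
  have h2 : ((h +ᵥ τ : ℍ) : ℂ) ∈ s := by
    show A ≤ ((h +ᵥ τ : ℍ) : ℂ).im
    simpa using hτ
  have := hs.norm_image_sub_le_of_norm_hasDerivWithin_le hd hb h1 h2
  simp only [Function.comp_apply, ofComplex_apply] at this
  refine this.trans ?_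
  apply mul_le_mul_of_nonneg_left _ ((norm_nonneg _).trans (hf τ hτ))
  have : ((h +ᵥ τ : ℍ) : ℂ) - (τ : ℂ) = (h : ℂ) := by simp
  rw [this, Complex.norm_real, Real.norm_of_nonneg hh]

/-- a primitive of a periodic holomorphic function vanishing at `i∞` is periodic -/
theorem FA_S21_IsPrim.periodic {f F : ℍ → ℂ} (hF : FA_S21_IsPrim f F) {h : ℝ} (hh : 0 < h)
    (hfhol : MDifferentiable 𝓘(ℂ) 𝓘(ℂ) f) (hper : Periodic (f ∘ ofComplex) (h : ℂ))
    (hzero : IsZeroAtImInfty f) : Periodic (F ∘ ofComplex) (h : ℂ) := by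
  -- the difference is constant
  have hconst := (hF.vadd hper).sub_const_of_eq hF
  -- `f` is small
  have hsmall : ∀ ε : ℝ, 0 < ε → ∃ A : ℝ, 0 < A ∧ ∀ z : ℍ, A ≤ z.im → ‖f z‖ ≤ ε := by
    intro ε hε
    have := (Metric.tendsto_nhds.mp hzero) ε hε
    rw [Filter.Eventually, atImInfty_mem] at this
    obtain ⟨A, hA⟩ := this
    refine ⟨max A 1, lt_of_lt_of_le one_pos (le_max_right _ _), fun z hz => ?_⟩
    have := hA z ((le_max_left _ _).trans hz)
    simp only [Set.mem_ofPred_eq, dist_zero_right] at this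
    exact this.le
  have hD : ∀ τ : ℍ, F (h +ᵥ τ) - F τ = 0 := by
    intro τ
    by_contra hne
    have hpos : 0 < ‖F (h +ᵥ τ) - F τ‖ := norm_pos_iff.mpr hne
    obtain ⟨A, hA, hfA⟩ := hsmall (‖F (h +ᵥ τ) - F τ‖ / (2 * h)) (by positivity)
    let τ' : ℍ := ⟨A * Complex.I, by simpa using hA⟩
    have hτ' : A ≤ τ'.im := by simp [τ', UpperHalfPlane.im]
    have h1 := FA_S21_norm_sub_le hF hA hh.le hfA τ' hτ'
    have h2 : F (h +ᵥ τ') - F τ' = F (h +ᵥ τ) - F τ := hconst τ' τ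
    rw [h2] at h1
    have h3 : ‖F (h +ᵥ τ) - F τ‖ / (2 * h) * h = ‖F (h +ᵥ τ) - F τ‖ / 2 := by
      field_simp
    rw [h3] at h1
    linarith
  intro w
  by_cases hw : 0 < w.im
  · have hw' : 0 < (w + (h : ℂ)).im := by simpa using hw
    simp only [Function.comp_apply]
    have := hD ⟨w, hw⟩
    rw [sub_eq_zero] at this
    rw [ofComplex_apply_of_im_pos hw, ofComplex_apply_of_im_pos hw', ← this]
    congr 1
    ext
    simp [add_comm]
  · have hw0 : w.im ≤ 0 := not_lt.mp hw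
    have hw' : (w + (h : ℂ)).im ≤ 0 := by simpa using hw0
    simp only [Function.comp_apply]
    rw [ofComplex_apply_of_im_nonpos hw', ofComplex_apply_of_im_nonpos hw0]

/-- a primitive of a periodic holomorphic function vanishing at `i∞` has a limit at `i∞` -/
theorem FA_S21_IsPrim.tendsto {f F : ℍ → ℂ} (hF : FA_S21_IsPrim f F) {h : ℝ} (hh : 0 < h)
    (hfhol : MDifferentiable 𝓘(ℂ) 𝓘(ℂ) f) (hper : Periodic (f ∘ ofComplex) (h : ℂ))
    (hzero : IsZeroAtImInfty f) : ∃ L : ℂ, Tendsto F atImInfty (𝓝 L) := by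
  have hFper := hF.periodic hh hfhol hper hzero
  have hFbdd : IsBoundedAtImInfty F := by
    have hper' : Periodic (FA_S22.FA_S22_diag 0 (fun τ _ => F τ) ∘ ofComplex) (h : ℂ) := by
      rw [FA_S21_diag_eq]; exact hFper
    have := FA_S22.FA_S22_isBoundedAtImInfty_diag hF.isEichler hzero.isBoundedAtImInfty hh hper'
    rwa [FA_S21_diag_eq] at this
  have hFhol := hF.mdifferentiable
  refine ⟨UpperHalfPlane.cuspFunction h F 0, ?_⟩
  have hcomp : (UpperHalfPlane.cuspFunction h F ∘ fun τ : ℍ ↦ Periodic.qParam h τ : ℍ → ℂ) = F := by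
    funext τ
    simpa using UpperHalfPlane.eq_cuspFunction τ hh.ne' hFper
  have := (UpperHalfPlane.analyticAt_cuspFunction_zero hh hFper hFhol hFbdd).continuousAt.tendsto.comp
    (UpperHalfPlane.qParam_tendsto_atImInfty hh)
  rwa [hcomp] at this

end FA_S21
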