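import Fermat.Agent.S21.Parabolic

/-!
# S21: the maximum principle on `Γ₀(N) \ ℍ*`

A holomorphic function on `ℍ` whose real part is `Γ₀(N)`-invariant and which has limits at all
cusps is constant.
-/

set_option autoImplicit false

namespace FA_S21

open UpperHalfPlane Filter Topology Function Matrix.SpecialLinearGroup CongruenceSubgroup
open ModularGroup
open scoped ModularForm MatrixGroups Manifold Pointwise

lemma FA_S21_Gamma_le_Gamma0 (N : ℕ) : Gamma N ≤ Gamma0 N := by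
  intro γ hγ
  rw [Gamma_mem] at hγ
  rw [Gamma0_mem]
  exact hγ.2.2.1

/-- `δ T^N δ⁻¹ ∈ Γ₀(N)` -/
lemma FA_S21_conj_T_pow_mem (N : ℕ) (δ : SL(2, ℤ)) : δ * T ^ (N : ℤ) * δ⁻¹ ∈ Gamma0 N := by
  apply FA_S21_Gamma_le_Gamma0
  have h1 : T ^ (N : ℤ) ∈ Gamma N := by
    have := ModularGroup_T_pow_mem_Gamma (N : ℤ) (N : ℤ) dvd_rfl
    simpa using this
  exact (Gamma_normal N).conj_mem _ h1 δ

section

variable (N : ℕ) [NeZero N] {e E : ℍ → ℂ}

/-- periodicity of `E ∘ δ` -/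
lemma FA_S21_periodic_of_re_periods (hE : FA_S21_IsPrim e E)
    (hper : ∀ γ ∈ Gamma0 N, ∃ c : ℂ, c.re = 0 ∧ ∀ z : ℍ, E (γ • z) - E z = c)
    (hcusp : ∀ δ : SL(2, ℤ), ∃ L : ℂ, Tendsto (fun w : ℍ => E (δ • w)) atImInfty (𝓝 L))
    (δ : SL(2, ℤ)) (w : ℍ) : E (δ • (T ^ (N : ℤ) • w)) = E (δ • w) := by
  obtain ⟨c, -, hc⟩ := hper _ (FA_S21_conj_T_pow_mem N δ)
  obtain ⟨L, hL⟩ := hcusp δ
  have hc' : ∀ w : ℍ, E (δ • (T ^ (N : ℤ) • w)) - E (δ • w) = c := by
    intro w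
    have := hc (δ • w)
    rw [← this, ← mul_smul, ← mul_smul]
    congr 3
    group
  have h1 : Tendsto (fun w : ℍ => E (δ • (T ^ (N : ℤ) • w)) - E (δ • w)) atImInfty (𝓝 (L - L)) :=
    (hL.comp (FA_S21_tendsto_T_zpow N)).sub hL
  have h2 : (fun w : ℍ => E (δ • (T ^ (N : ℤ) • w)) - E (δ • w)) = fun _ => c := funext hc'
  rw [h2, sub_self] at h1
  have hc0 : c = 0 := tendsto_nhds_unique tendsto_const_nhds h1
  have := hc' w
  rw [hc0, sub_eq_zero] at this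
  exact this

lemma FA_S21_periodic_comp (hE : FA_S21_IsPrim e E)
    (hper : ∀ γ ∈ Gamma0 N, ∃ c : ℂ, c.re = 0 ∧ ∀ z : ℍ, E (γ • z) - E z = c)
    (hcusp : ∀ δ : SL(2, ℤ), ∃ L : ℂ, Tendsto (fun w : ℍ => E (δ • w)) atImInfty (𝓝 L))
    (δ : SL(2, ℤ)) : Periodic ((fun w : ℍ => E (δ • w)) ∘ ofComplex) (((N : ℝ) : ℂ)) := by
  intro w
  by_cases hw : 0 < w.im
  · have hw' : 0 < (w + ((N : ℝ) : ℂ)).im := by simpa using hw
    simp only [Function.comp_apply]
    rw [ofComplex_apply_of_im_pos hw, ofComplex_apply_of_im_pos hw']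
    have := FA_S21_periodic_of_re_periods N hE hper hcusp δ ⟨w, hw⟩
    rw [← this]
    congr 2
    ext
    rw [coe_T_zpow_smul_eq]
    simp
  · have hw0 : w.im ≤ 0 := not_lt.mp hw
    have hw' : (w + ((N : ℝ) : ℂ)).im ≤ 0 := by simpa using hw0
    simp only [Function.comp_apply]
    rw [ofComplex_apply_of_im_nonpos hw', ofComplex_apply_of_im_nonpos hw0]

end

end FA_S21

namespace FA_S21

open UpperHalfPlane Filter Topology Function Matrix.SpecialLinearGroup CongruenceSubgroup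
open ModularGroup
open scoped ModularForm MatrixGroups Manifold Pointwise

/-- the cusp function of `E ∘ δ` -/
noncomputable def FA_S21_cf (N : ℕ) (E : ℍ → ℂ) (δ : SL(2, ℤ)) : ℂ → ℂ :=
  UpperHalfPlane.cuspFunction (N : ℝ) (fun w : ℍ => E (δ • w))

section

variable (N : ℕ) [NeZero N] {e E : ℍ → ℂ}

lemma FA_S21_N_pos : (0 : ℝ) < (N : ℝ) := by
  have := NeZero.pos N
  exact_mod_cast this

lemma FA_S21_cf_differentiableOn (hE : FA_S21_IsPrim e E)
    (hper : ∀ γ ∈ Gamma0 N, ∃ c : ℂ, c.re = 0 ∧ ∀ z : ℍ, E (γ • z) - E z = c)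
    (hcusp : ∀ δ : SL(2, ℤ), ∃ L : ℂ, Tendsto (fun w : ℍ => E (δ • w)) atImInfty (𝓝 L))
    (δ : SL(2, ℤ)) : DifferentiableOn ℂ (FA_S21_cf N E δ) (Metric.ball 0 1) := by
  obtain ⟨L, hL⟩ := hcusp δ
  exact UpperHalfPlane.differentiableOn_cuspFunction_ball (FA_S21_N_pos N)
    (FA_S21_periodic_comp N hE hper hcusp δ) (hE.slash δ).mdifferentiable (hL.isBigO_one ℝ)

lemma FA_S21_cf_eq (hE : FA_S21_IsPrim e E)
    (hper : ∀ γ ∈ Gamma0 N, ∃ c : ℂ, c.re = 0 ∧ ∀ z : ℍ, E (γ • z) - E z = c)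
    (hcusp : ∀ δ : SL(2, ℤ), ∃ L : ℂ, Tendsto (fun w : ℍ => E (δ • w)) atImInfty (𝓝 L))
    (δ : SL(2, ℤ)) (w : ℍ) :
    FA_S21_cf N E δ (Periodic.qParam (N : ℝ) (w : ℂ)) = E (δ • w) :=
  UpperHalfPlane.eq_cuspFunction w (FA_S21_N_pos N).ne' (FA_S21_periodic_comp N hE hper hcusp δ)

/-- the radius of the compact disc -/
noncomputable def FA_S21_rad (N : ℕ) : ℝ := Real.exp (-Real.pi / N)

lemma FA_S21_rad_lt_one : FA_S21_rad N < 1 := by
  unfold FA_S21_rad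
  rw [Real.exp_lt_one_iff]
  have := FA_S21_N_pos N
  have hpi := Real.pi_pos
  apply div_neg_of_neg_of_pos <;> linarith

lemma FA_S21_rad_nonneg : 0 ≤ FA_S21_rad N := (Real.exp_pos _).le

lemma FA_S21_norm_qParam_le (w : ℍ) (hw : 1 / 2 ≤ w.im) :
    ‖Periodic.qParam (N : ℝ) (w : ℂ)‖ ≤ FA_S21_rad N := by
  rw [Periodic.norm_qParam]
  unfold FA_S21_rad
  apply Real.exp_le_exp.mpr
  have hN := FA_S21_N_pos N
  have hpi := Real.pi_pos
  rw [div_le_div_iff_of_pos_right hN]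
  have : (w : ℂ).im = w.im := rfl
  rw [this]
  nlinarith

/-- every point is `Γ₀(N)`-equivalent to `R x • w` with `Im w ≥ 1/2` -/
lemma FA_S21_exists_rep (z : ℍ) :
    ∃ (γ : SL(2, ℤ)) (x : SL(2, ℤ) ⧸ Gamma0 N) (w : ℍ), γ ∈ Gamma0 N ∧ 1 / 2 ≤ w.im ∧
      z = γ • ((Quotient.out x : SL(2, ℤ))⁻¹ • w) := by
  obtain ⟨g, hg⟩ := exists_one_half_le_im_smul z
  obtain ⟨h, hh⟩ := QuotientGroup.mk_out_eq_mul (Gamma0 N) g
  refine ⟨g⁻¹ * (Quotient.out (QuotientGroup.mk g : SL(2, ℤ) ⧸ Gamma0 N) : SL(2, ℤ)),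
    QuotientGroup.mk g, g • z, ?_, hg, ?_⟩
  · rw [hh]
    simpa using h.2
  · rw [← mul_smul, ← mul_smul]
    simp

theorem FA_S21_const_of_re_periods (hE : FA_S21_IsPrim e E)
    (hper : ∀ γ ∈ Gamma0 N, ∃ c : ℂ, c.re = 0 ∧ ∀ z : ℍ, E (γ • z) - E z = c)
    (hcusp : ∀ δ : SL(2, ℤ), ∃ L : ℂ, Tendsto (fun w : ℍ => E (δ • w)) atImInfty (𝓝 L)) :
    ∀ z z' : ℍ, E z = E z' := by
  classical
  have hNpos := FA_S21_N_pos N
  -- representatives
  let R : SL(2, ℤ) ⧸ Gamma0 N → SL(2, ℤ) := fun x => (Quotient.out x : SL(2, ℤ))⁻¹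
  -- the compact disc
  let K : Set ℂ := Metric.closedBall 0 (FA_S21_rad N)
  have hK : IsCompact K := isCompact_closedBall _ _
  have hKne : K.Nonempty := ⟨0, by simp [K, FA_S21_rad_nonneg]⟩
  have hKsub : K ⊆ Metric.ball 0 1 := Metric.closedBall_subset_ball (FA_S21_rad_lt_one N)
  -- maxima on the disc
  have hmax : ∀ x : SL(2, ℤ) ⧸ Gamma0 N, ∃ q ∈ K, ∀ q' ∈ K,
      (FA_S21_cf N E (R x) q').re ≤ (FA_S21_cf N E (R x) q).re := by
    intro x
    have hcont : ContinuousOn (fun q => (FA_S21_cf N E (R x) q).re) K :=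
      Complex.continuous_re.comp_continuousOn
        ((FA_S21_cf_differentiableOn N hE hper hcusp (R x)).continuousOn.mono hKsub)
    obtain ⟨q, hq, hqmax⟩ := hK.exists_isMaxOn hKne hcont
    exact ⟨q, hq, fun q' hq' => hqmax hq'⟩
  choose qx hqx hqxmax using hmax
  haveI : Finite (SL(2, ℤ) ⧸ Gamma0 N) := Subgroup.finite_quotient_of_finiteIndex
  haveI : Nonempty (SL(2, ℤ) ⧸ Gamma0 N) := ⟨QuotientGroup.mk 1⟩
  obtain ⟨x₀, hx₀⟩ := Finite.exists_max (fun x => (FA_S21_cf N E (R x) (qx x)).re)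
  set M := (FA_S21_cf N E (R x₀) (qx x₀)).re with hM
  -- the global bound
  have hglob : ∀ z : ℍ, (E z).re ≤ M := by
    intro z
    obtain ⟨γ, x, w, hγ, hw, rfl⟩ := FA_S21_exists_rep N z
    obtain ⟨c, hc0, hc⟩ := hper γ hγ
    have h1 : (E (γ • ((Quotient.out x : SL(2, ℤ))⁻¹ • w))).re =
        (E ((Quotient.out x : SL(2, ℤ))⁻¹ • w)).re := by
      have := hc ((Quotient.out x : SL(2, ℤ))⁻¹ • w)
      have h2 : E (γ • ((Quotient.out x : SL(2, ℤ))⁻¹ • w)) =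
          E ((Quotient.out x : SL(2, ℤ))⁻¹ • w) + c := by rw [← this]; ring
      rw [h2, Complex.add_re, hc0, add_zero]
    rw [h1, ← FA_S21_cf_eq N hE hper hcusp (R x) w]
    refine (hqxmax x _ ?_).trans (hx₀ x)
    simp only [K, Metric.mem_closedBall, dist_zero_right]
    exact FA_S21_norm_qParam_le N w hw
  -- the bound for the cusp function
  set c₀ := FA_S21_cf N E (R x₀) with hc₀
  have hc₀diff : DifferentiableOn ℂ c₀ (Metric.ball 0 1) :=
    FA_S21_cf_differentiableOn N hE hper hcusp (R x₀)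
  have hball_ne : ∀ q ∈ Metric.ball (0 : ℂ) 1, q ≠ 0 → (c₀ q).re ≤ M := by
    intro q hq hq0
    have hq1 : ‖q‖ < 1 := by simpa using hq
    have hpos := Periodic.im_invQParam_pos_of_norm_lt_one hNpos hq1 hq0
    have := FA_S21_cf_eq N hE hper hcusp (R x₀) ⟨_, hpos⟩
    rw [show ((⟨Periodic.invQParam (N : ℝ) q, hpos⟩ : ℍ) : ℂ) = Periodic.invQParam (N : ℝ) q from rfl,
      Periodic.qParam_right_inv hNpos.ne' hq0] at this
    rw [hc₀, this]
    exact hglob _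
  have hball : ∀ q ∈ Metric.ball (0 : ℂ) 1, (c₀ q).re ≤ M := by
    intro q hq
    by_cases hq0 : q = 0
    · subst hq0
      have hcont : ContinuousAt c₀ 0 :=
        (hc₀diff.differentiableAt (Metric.ball_mem_nhds _ one_pos)).continuousAt
      have ht : Tendsto (fun q => (c₀ q).re) (𝓝[≠] 0) (𝓝 (c₀ 0).re) :=
        (Complex.continuous_re.continuousAt.comp hcont).tendsto.mono_left nhdsWithin_le_nhds
      refine le_of_tendsto ht ?_
      have h1 : Metric.ball (0 : ℂ) 1 ∈ 𝓝[≠] (0 : ℂ) :=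
        mem_nhdsWithin_of_mem_nhds (Metric.ball_mem_nhds _ one_pos)
      filter_upwards [h1, self_mem_nhdsWithin] with q hq hq0
      exact hball_ne q hq hq0
    · exact hball_ne q hq hq0
  -- maximum modulus principle for `exp ∘ c₀`
  have hq₀ball : qx x₀ ∈ Metric.ball (0 : ℂ) 1 := hKsub (hqx x₀)
  have hGdiff : DifferentiableOn ℂ (fun q => Complex.exp (c₀ q)) (Metric.ball 0 1) :=
    fun q hq => ((hc₀diff q hq).cexp)
  have hGmax : IsMaxOn (norm ∘ fun q => Complex.exp (c₀ q)) (Metric.ball 0 1) (qx x₀) := by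
    intro q hq
    simp only [Function.comp_apply, Complex.norm_exp, Set.mem_ofPred_eq]
    exact Real.exp_le_exp.mpr (hball q hq)
  have hGconst := Complex.eqOn_of_isPreconnected_of_isMaxOn_norm
    (convex_ball (0 : ℂ) 1).isPreconnected Metric.isOpen_ball hGdiff hq₀ball hGmax
  -- `c₀` is constant on the ball
  have hderiv : ∀ q ∈ Metric.ball (0 : ℂ) 1, deriv c₀ q = 0 := by
    intro q hq
    have hd : DifferentiableAt ℂ c₀ q := hc₀diff.differentiableAt (Metric.isOpen_ball.mem_nhds hq)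
    have h1 : HasDerivAt (fun q => Complex.exp (c₀ q)) (Complex.exp (c₀ q) * deriv c₀ q) q :=
      hd.hasDerivAt.cexp
    have h2 : HasDerivAt (fun q => Complex.exp (c₀ q)) 0 q := by
      have : (fun q => Complex.exp (c₀ q)) =ᶠ[𝓝 q] fun _ => Complex.exp (c₀ (qx x₀)) := by
        filter_upwards [Metric.isOpen_ball.mem_nhds hq] with q' hq'
        exact hGconst hq'
      exact (hasDerivAt_const q _).congr_of_eventuallyEq this
    have h3 := h1.unique h2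
    rcases mul_eq_zero.mp h3 with h | h
    · exact absurd h (Complex.exp_ne_zero _)
    · exact h
  have hcconst : ∀ q ∈ Metric.ball (0 : ℂ) 1, ∀ q' ∈ Metric.ball (0 : ℂ) 1, c₀ q = c₀ q' := by
    intro q hq q' hq'
    exact Metric.isOpen_ball.is_const_of_deriv_eq_zero (convex_ball (0 : ℂ) 1).isPreconnected
      hc₀diff (fun q hq => hderiv q hq) hq hq'
  -- conclusion
  have hEδ : ∀ w w' : ℍ, E (R x₀ • w) = E (R x₀ • w') := by
    intro w w'
    rw [← FA_S21_cf_eq N hE hper hcusp (R x₀) w, ← FA_S21_cf_eq N hE hper hcusp (R x₀) w']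
    apply hcconst
    · simpa using Periodic.norm_qParam_lt_one hNpos w.im_pos
    · simpa using Periodic.norm_qParam_lt_one hNpos w'.im_pos
  intro z z'
  have h1 := hEδ ((R x₀)⁻¹ • z) ((R x₀)⁻¹ • z')
  rwa [smul_inv_smul, smul_inv_smul] at h1

/-- **Maximum principle**: if the periods of the primitive `E` of `e` are purely imaginary and
`E` has limits at all cusps, then `e = 0`. -/
theorem FA_S21_eq_zero_of_re_periods (hE : FA_S21_IsPrim e E)
    (hper : ∀ γ ∈ Gamma0 N, ∃ c : ℂ, c.re = 0 ∧ ∀ z : ℍ, E (γ • z) - E z = c)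
    (hcusp : ∀ δ : SL(2, ℤ), ∃ L : ℂ, Tendsto (fun w : ℍ => E (δ • w)) atImInfty (𝓝 L))
    (τ : ℍ) : e τ = 0 :=
  hE.eq_zero_of_const (FA_S21_const_of_re_periods N hE hper hcusp) τ

end

end FA_S21
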