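import Fermat.Agent.S21.Linear

/-!
# S21: the period of a parabolic element vanishes
-/

set_option autoImplicit false

namespace FA_S21

open UpperHalfPlane Filter Topology Function Matrix.SpecialLinearGroup CongruenceSubgroup
open ModularCurve ModularCurve.Period ModularGroup
open scoped ModularForm MatrixGroups Manifold Pointwise

/-- the fixed point equation of a parabolic matrix has a primitive integral solution -/
lemma FA_S21_exists_coprime (p q r s : ℤ) (hdet : p * s - q * r = 1) (htr : (p + s) ^ 2 = 4) :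
    ∃ a c : ℤ, IsCoprime a c ∧ r * a ^ 2 + (s - p) * a * c - q * c ^ 2 = 0 := by
  by_cases hr : r = 0
  · refine ⟨1, 0, isCoprime_one_left, ?_⟩
    rw [hr]; ring
  · have hd : (Int.gcd (p - s) (2 * r) : ℤ) ≠ 0 := by
      have : Int.gcd (p - s) (2 * r) ≠ 0 := by
        rw [Ne, Int.gcd_eq_zero_iff]
        rintro ⟨-, h2⟩
        have : r = 0 := by omega
        exact hr this
      exact_mod_cast this
    set d : ℤ := (Int.gcd (p - s) (2 * r) : ℤ) with hddef
    obtain ⟨a, ha⟩ : d ∣ (p - s) := Int.gcd_dvd_left _ _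
    obtain ⟨c, hc⟩ : d ∣ (2 * r) := Int.gcd_dvd_right _ _
    refine ⟨a, c, ?_, ?_⟩
    · have h1 : IsCoprime ((p - s) / d) ((2 * r) / d) := by
        have hpos : 0 < Int.gcd (p - s) (2 * r) := by
          apply Nat.pos_of_ne_zero
          intro h
          rw [Int.gcd_eq_zero_iff] at h
          have : r = 0 := by omega
          exact hr this
        exact Int.isCoprime_iff_gcd_eq_one.mpr (Int.gcd_ediv_gcd_ediv_gcd hpos)
      have e1 : (p - s) / d = a := by
        rw [ha]; exact Int.mul_ediv_cancel_left _ hd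
      have e2 : (2 * r) / d = c := by
        rw [hc]; exact Int.mul_ediv_cancel_left _ hd
      rwa [e1, e2] at h1
    · have key : d ^ 2 * (r * a ^ 2 + (s - p) * a * c - q * c ^ 2) = 0 := by
        have h1 : d ^ 2 * (r * a ^ 2 + (s - p) * a * c - q * c ^ 2) =
            r * (d * a) ^ 2 + (s - p) * (d * a) * (d * c) - q * (d * c) ^ 2 := by ring
        rw [h1, ← ha, ← hc]
        have h2 : (p - s) ^ 2 + 4 * (q * r) = 0 := by
          have : (p - s) ^ 2 + 4 * (q * r) = (p + s) ^ 2 - 4 * (p * s - q * r) := by ring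
          rw [this, htr, hdet]; norm_num
        linear_combination (-r) * h2
      rcases mul_eq_zero.mp key with h | h
      · exact absurd (pow_eq_zero_iff (two_ne_zero)|>.mp h) hd
      · exact h

/-- a parabolic element of `SL(2, ℤ)` is conjugate to an upper triangular matrix -/
lemma FA_S21_exists_conj (γ : SL(2, ℤ))
    (htr : (γ : Matrix (Fin 2) (Fin 2) ℤ).trace ^ 2 = 4) :
    ∃ g : SL(2, ℤ), (g * γ * g⁻¹) 1 0 = 0 := by
  have hdet := γ.det_coe
  rw [Matrix.det_fin_two] at hdet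
  rw [Matrix.trace_fin_two] at htr
  obtain ⟨a, c, hac, heq⟩ := FA_S21_exists_coprime (γ 0 0) (γ 0 1) (γ 1 0) (γ 1 1)
    (by linarith) htr
  have hcop : IsCoprime (![-c, a] 0) (![-c, a] 1) := by
    simp only [Matrix.cons_val_zero, Matrix.cons_val_one]
    exact hac.symm.neg_left
  obtain ⟨g, -, hg⟩ := bottom_row_surj (R := ℤ) hcop
  have hg0 : g 1 0 = -c := by
    have := congrFun hg 0; simpa using this
  have hg1 : g 1 1 = a := by
    have := congrFun hg 1; simpa using this
  refine ⟨g, ?_⟩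
  have h : ((g * γ * g⁻¹ : SL(2, ℤ)) : Matrix (Fin 2) (Fin 2) ℤ) 1 0 = 0 := by
    rw [Matrix.SpecialLinearGroup.coe_mul, Matrix.SpecialLinearGroup.coe_mul,
      Matrix.SpecialLinearGroup.coe_inv, Matrix.adjugate_fin_two]
    simp only [Matrix.mul_apply, Fin.sum_univ_two, Matrix.of_apply, Matrix.cons_val_zero,
      Matrix.cons_val_one, Matrix.cons_val', Matrix.cons_val_fin_one]
    rw [hg0, hg1]
    linear_combination heq
  exact h

/-- a parabolic element fixes a cusp -/
lemma FA_S21_exists_cusp (γ : SL(2, ℤ))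
    (htr : (γ : Matrix (Fin 2) (Fin 2) ℤ).trace ^ 2 = 4) :
    ∃ (δ : SL(2, ℤ)) (n : ℤ), ∀ w : ℍ, γ • (δ • w) = δ • (T ^ n • w) := by
  obtain ⟨g, hg⟩ := FA_S21_exists_conj γ htr
  obtain ⟨n, hn⟩ := exists_eq_T_zpow_of_c_eq_zero hg
  refine ⟨g⁻¹, n, fun w => ?_⟩
  rw [← hn w, ← mul_smul, ← mul_smul]
  congr 1
  group

lemma FA_S21_tendsto_T_zpow (n : ℤ) :
    Tendsto (fun w : ℍ => T ^ n • w) atImInfty atImInfty := by
  rw [atImInfty, tendsto_comap_iff]
  have : (UpperHalfPlane.im ∘ fun w : ℍ => T ^ n • w) = UpperHalfPlane.im := by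
    funext w
    exact im_T_zpow_smul w n
  rw [this]
  exact tendsto_comap

theorem FA_S21_periodMap_mem_parabolicHoms (N : ℕ) [NeZero N] (f : CuspForm (Gamma0 N) 2) :
    periodMap N f ∈ parabolicHoms ℂ (Gamma0 N) ℂ := by
  rw [mem_parabolicHoms_iff]
  intro γ hγ
  obtain ⟨δ, n, hδ⟩ := FA_S21_exists_cusp (γ : SL(2, ℤ)) hγ
  obtain ⟨L, hL⟩ := FA_S21_prim_tendsto_cusp N f δ
  set c := periodMap N f (Additive.ofMul γ) with hc
  have h1 : Tendsto (fun w : ℍ => FA_S21_prim N f (δ • (T ^ n • w)) - FA_S21_prim N f (δ • w))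
      atImInfty (𝓝 (L - L)) :=
    (hL.comp (FA_S21_tendsto_T_zpow n)).sub hL
  have h2 : (fun w : ℍ => FA_S21_prim N f (δ • (T ^ n • w)) - FA_S21_prim N f (δ • w)) =
      fun _ => c := by
    funext w
    rw [hc, FA_S21_periodMap_apply' N f γ (δ • w), hδ w]
  rw [h2, sub_self] at h1
  exact tendsto_nhds_unique tendsto_const_nhds h1

end FA_S21
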