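import Mathlib
import Fermat.Prelude.Def_ModularCurve_PeriodMapBundled
import Fermat.Agent.S22.Primitive
import Fermat.Agent.S22.Growth

/-!
# S21: primitives of weight 2 cusp forms (existence, chain rule, periodicity, limits at cusps)
-/

set_option autoImplicit false

namespace FA_S21

open UpperHalfPlane Filter Topology Function Matrix.SpecialLinearGroup
open scoped ModularForm MatrixGroups Manifold

/-- `F` is a primitive of `f` on the upper half plane -/
def FA_S21_IsPrim (f F : ℍ → ℂ) : Prop :=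
  ∀ τ : ℍ, HasDerivAt (F ∘ ofComplex) (f τ) (τ : ℂ)

theorem FA_S21_exists_prim (f : ℍ → ℂ) (hf : MDifferentiable 𝓘(ℂ) 𝓘(ℂ) f) :
    ∃ F : ℍ → ℂ, FA_S21_IsPrim f F := by
  have hg : DifferentiableOn ℂ (f ∘ ofComplex) {z : ℂ | 0 < z.im} :=
    UpperHalfPlane.mdifferentiable_iff.mp hf
  obtain ⟨F₀, hF₀⟩ := FA_S22.FA_S22_exists_primitive (f ∘ ofComplex) hg
  refine ⟨fun τ => F₀ (τ : ℂ), fun τ => ?_⟩
  have h1 := hF₀ (τ : ℂ) τ.im_pos
  have h2 : (f ∘ ofComplex) (τ : ℂ) = f τ := by simp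
  rw [h2] at h1
  refine h1.congr_of_eventuallyEq ?_
  have hopen : {z : ℂ | 0 < z.im} ∈ 𝓝 (τ : ℂ) := isOpen_upperHalfPlaneSet.mem_nhds τ.im_pos
  filter_upwards [hopen] with w hw
  simp only [Function.comp_apply]
  rw [ofComplex_apply_of_im_pos hw]

lemma FA_S21_IsPrim.mdifferentiable {f F : ℍ → ℂ} (hF : FA_S21_IsPrim f F) :
    MDifferentiable 𝓘(ℂ) 𝓘(ℂ) F := by
  rw [UpperHalfPlane.mdifferentiable_iff]
  intro z hz
  exact (hF ⟨z, hz⟩).differentiableAt.differentiableWithinAt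

lemma FA_S21_IsPrim.add {f f' F F' : ℍ → ℂ} (hF : FA_S21_IsPrim f F) (hF' : FA_S21_IsPrim f' F') :
    FA_S21_IsPrim (f + f') (F + F') := fun τ => (hF τ).add (hF' τ)

lemma FA_S21_IsPrim.sub {f f' F F' : ℍ → ℂ} (hF : FA_S21_IsPrim f F) (hF' : FA_S21_IsPrim f' F') :
    FA_S21_IsPrim (f - f') (F - F') := fun τ => (hF τ).sub (hF' τ)

lemma FA_S21_IsPrim.const_smul {f F : ℍ → ℂ} (hF : FA_S21_IsPrim f F) (c : ℂ) :
    FA_S21_IsPrim (c • f) (c • F) := fun τ => (hF τ).const_smul c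

lemma FA_S21_IsPrim.sub_const {f F : ℍ → ℂ} (hF : FA_S21_IsPrim f F) (c : ℂ) :
    FA_S21_IsPrim f (fun τ => F τ - c) := fun τ => (hF τ).sub_const c

/-- a primitive of `0` is constant -/
theorem FA_S21_IsPrim.const_of_zero {F : ℍ → ℂ} (hF : FA_S21_IsPrim 0 F) (τ τ' : ℍ) :
    F τ = F τ' := by
  have hopen : IsOpen {z : ℂ | 0 < z.im} := isOpen_upperHalfPlaneSet
  have hconn : IsPreconnected {z : ℂ | 0 < z.im} := (convex_halfSpace_im_gt 0).isPreconnected
  have hd : ∀ z ∈ {z : ℂ | 0 < z.im}, HasDerivAt (F ∘ ofComplex) 0 z := by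
    intro z hz
    have := hF ⟨z, hz⟩
    simpa using this
  have hdiff : DifferentiableOn ℂ (F ∘ ofComplex) {z : ℂ | 0 < z.im} :=
    fun z hz => (hd z hz).differentiableAt.differentiableWithinAt
  have hderiv : Set.EqOn (deriv (F ∘ ofComplex)) 0 {z : ℂ | 0 < z.im} :=
    fun z hz => (hd z hz).deriv
  have := hopen.is_const_of_deriv_eq_zero hconn hdiff hderiv τ.im_pos τ'.im_pos
  simpa using this

/-- two primitives of the same function differ by a constant -/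
theorem FA_S21_IsPrim.sub_const_of_eq {f F F' : ℍ → ℂ} (hF : FA_S21_IsPrim f F)
    (hF' : FA_S21_IsPrim f F') (τ τ' : ℍ) : F τ - F' τ = F τ' - F' τ' := by
  have h := hF.sub hF'
  rw [sub_self] at h
  exact h.const_of_zero τ τ'

/-- a function with a primitive which is constant vanishes -/
theorem FA_S21_IsPrim.eq_zero_of_const {f F : ℍ → ℂ} (hF : FA_S21_IsPrim f F)
    (hc : ∀ τ τ' : ℍ, F τ = F τ') (τ : ℍ) : f τ = 0 := by
  have h1 := hF τ
  have h2 : HasDerivAt (F ∘ ofComplex) 0 (τ : ℂ) := by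
    have hconst : (F ∘ ofComplex) = fun _ => F τ := by
      funext w
      exact hc _ _
    rw [hconst]
    exact hasDerivAt_const _ _
  exact h1.unique h2

/-- chain rule for the Möbius action (weight 2) -/
theorem FA_S21_IsPrim.slash {f F : ℍ → ℂ} (hF : FA_S21_IsPrim f F) (g : SL(2, ℤ)) :
    FA_S21_IsPrim (f ∣[(2 : ℤ)] g) (fun τ => F (g • τ)) := by
  intro τ
  have hg : (0 : ℝ) < ((mapGL ℝ g).det.val) := by simp
  have h1 := (hasStrictDerivAt_smul hg τ).hasDerivAt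
  have h2 := hF ((mapGL ℝ g) • τ)
  have h2' : HasDerivAt (F ∘ ofComplex) (f ((mapGL ℝ g) • τ))
      ((((mapGL ℝ g) • ofComplex (τ : ℂ) : ℍ)) : ℂ) := by
    rw [ofComplex_apply]; exact h2
  have h3 := HasDerivAt.comp (τ : ℂ) h2' h1
  have hval : (f ∣[(2 : ℤ)] g) τ = f ((mapGL ℝ g) • τ) *
      ((((mapGL ℝ g).det.val : ℝ) : ℂ) / denom (mapGL ℝ g) τ ^ 2) := by
    rw [ModularForm.SL_slash]
    change (f ∣[(2 : ℤ)] (mapGL ℝ g)) τ = _
    rw [ModularForm.slash_apply]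
    have hσ : σ (mapGL ℝ g) = .refl ℝ ℂ := by rw [σ, if_pos hg]
    rw [hσ, ContinuousAlgEquiv.refl_apply]
    have hd1 : ((mapGL ℝ g).det.val : ℝ) = 1 := by simp
    rw [hd1]
    simp only [abs_one, Complex.ofReal_one, one_zpow, mul_one]
    rw [show (-(2 : ℤ)) = -((2 : ℕ) : ℤ) by norm_num, zpow_neg, zpow_natCast]
    rw [one_div]
  rw [hval]
  refine h3.congr_of_eventuallyEq ?_
  filter_upwards with w
  simp only [Function.comp_apply]
  rw [ofComplex_apply]
  rfl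

end FA_S21
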