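import Fermat.Agent.S21.MaxPrinciple

/-!
# S21: the reflection `z ↦ -z̄` and primitives
-/

set_option autoImplicit false

namespace FA_S21

open UpperHalfPlane Filter Topology Function Matrix.SpecialLinearGroup CongruenceSubgroup
open ModularCurve ModularCurve.Period ModularGroup ComplexConjugate
open scoped ModularForm MatrixGroups Manifold Pointwise

/-- the reflected function `z ↦ conj (A (-z̄))` -/
noncomputable def FA_S21_refl (A : ℍ → ℂ) : ℍ → ℂ := fun z => conj (A (J • z))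

lemma FA_S21_refl_apply (A : ℍ → ℂ) (z : ℍ) : FA_S21_refl A z = conj (A (J • z)) := rfl

lemma FA_S21_J_smul_J_smul (z : ℍ) : J • (J • z) = z := by
  ext
  rw [coe_J_smul, coe_J_smul]
  simp

/-- `-conj (γ z) = (jγj)(-conj z)` -/
lemma FA_S21_J_smul_smul (γ : SL(2, ℤ)) (z : ℍ) :
    J • (γ • z) = (jConjSL γ) • (J • z) := by
  ext
  rw [coe_J_smul, coe_specialLinearGroup_apply, coe_specialLinearGroup_apply, coe_J_smul]
  simp only [jConjSL_coe, jConjMat, Matrix.of_apply, Matrix.cons_val_zero, Matrix.cons_val_one,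
    Matrix.cons_val', Matrix.cons_val_fin_one, algebraMap_int_eq, eq_intCast, Int.cast_neg,
    Complex.ofReal_neg, Complex.ofReal_intCast, map_div₀, map_add, map_mul, map_intCast, map_neg]
  have h1 : ((γ 1 0 : ℤ) : ℂ) * conj (z : ℂ) + ((γ 1 1 : ℤ) : ℂ) ≠ 0 := by
    have := UpperHalfPlane.denom_ne_zero (mapGL ℝ γ) (J • z)
    intro h
    have h' : ((γ 1 0 : ℤ) : ℂ) * (z : ℂ) + ((γ 1 1 : ℤ) : ℂ) = 0 := by
      have := congrArg conj h
      simpa using this
    have h2 := UpperHalfPlane.denom_ne_zero (mapGL ℝ γ) z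
    apply h2
    simpa [denom] using h'
  have h2 : -((γ 1 0 : ℤ) : ℂ) * -conj (z : ℂ) + ((γ 1 1 : ℤ) : ℂ) ≠ 0 := by
    rw [neg_mul_neg]; exact h1
  field_simp
  ring

lemma FA_S21_tendsto_J : Tendsto (fun w : ℍ => J • w) atImInfty atImInfty := by
  rw [atImInfty, tendsto_comap_iff]
  have : (UpperHalfPlane.im ∘ fun w : ℍ => J • w) = UpperHalfPlane.im := by
    funext w
    show (J • w).im = w.im
    rw [← coe_im, coe_J_smul, ← coe_im]
    simp
  rw [this]
  exact tendsto_comap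

/-- the reflection of a primitive is a primitive -/
theorem FA_S21_IsPrim.refl {h H : ℍ → ℂ} (hH : FA_S21_IsPrim h H) :
    FA_S21_IsPrim (fun z => -FA_S21_refl h z) (FA_S21_refl H) := by
  intro τ
  have h1 := hH (J • τ)
  rw [coe_J_smul] at h1
  -- `w ↦ H (ofComplex (-w))` at `conj τ`
  have h2 : HasDerivAt (fun w : ℂ => (H ∘ ofComplex) (-w)) (-(h (J • τ))) (conj (τ : ℂ)) := by
    have hneg : HasDerivAt (fun w : ℂ => -w) (-1) (conj (τ : ℂ)) := (hasDerivAt_id _).neg
    have := HasDerivAt.comp (conj (τ : ℂ)) (h₂ := H ∘ ofComplex) (h := fun w : ℂ => -w) h1 hneg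
    rw [mul_neg, mul_one] at this
    exact this
  have h3 := h2.conj_conj
  rw [Complex.conj_conj] at h3
  have hval : conj (-(h (J • τ))) = -FA_S21_refl h τ := by
    rw [FA_S21_refl_apply, map_neg]
  rw [hval] at h3
  refine h3.congr_of_eventuallyEq ?_
  have hopen : {z : ℂ | 0 < z.im} ∈ 𝓝 (τ : ℂ) := isOpen_upperHalfPlaneSet.mem_nhds τ.im_pos
  filter_upwards [hopen] with w hw
  simp only [Function.comp_apply, FA_S21_refl_apply]
  congr 2
  have hw' : 0 < (-conj w).im := by simpa using hw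
  rw [ofComplex_apply_of_im_pos hw, ofComplex_apply_of_im_pos hw']
  ext
  rw [coe_J_smul]

/-- periods of the reflection -/
lemma FA_S21_refl_period {H : ℍ → ℂ} (γ : SL(2, ℤ)) (z : ℍ) :
    FA_S21_refl H (γ • z) - FA_S21_refl H z =
      conj (H ((jConjSL γ) • (J • z)) - H (J • z)) := by
  rw [FA_S21_refl_apply, FA_S21_refl_apply, FA_S21_J_smul_smul, map_sub]

/-- limits at the cusps of the reflection -/
lemma FA_S21_refl_tendsto {H : ℍ → ℂ}
    (hcusp : ∀ δ : SL(2, ℤ), ∃ L : ℂ, Tendsto (fun w : ℍ => H (δ • w)) atImInfty (𝓝 L))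
    (δ : SL(2, ℤ)) : ∃ L : ℂ, Tendsto (fun w : ℍ => FA_S21_refl H (δ • w)) atImInfty (𝓝 L) := by
  obtain ⟨L, hL⟩ := hcusp (jConjSL δ)
  refine ⟨conj L, ?_⟩
  have h1 : Tendsto (fun w : ℍ => H ((jConjSL δ) • (J • w))) atImInfty (𝓝 L) :=
    hL.comp FA_S21_tendsto_J
  have h2 := (Complex.continuous_conj.tendsto L).comp h1
  refine h2.congr fun w => ?_
  simp only [Function.comp_apply, FA_S21_refl_apply, FA_S21_J_smul_smul]

end FA_S21
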